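/-
S55 moonshot — LAYER K (global Kummer bridge), definitions.   Architect: helper4.
Namespace `Fermat.Agent.S55.K`.  Mathlib + Prelude + `PT/Levels`, `PT/Coh` (helper835), `Spec/Tower`
(helper55), `Bridge/MuP` (helper655).  NO sorry.  Blueprint: `coord/S55-K.md` (origin/helper4).

Contents
* `IsLC₃`, `d34`, `H3Vanish`, `H3TorsVanish` : level-constant 3-cochains (PT stops in degree 2);
* `ind φ V A`                                 : the induced module `(G ⧸ V →₀ A)`, diagonal action,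
                                                for ANY coefficient ring (we need `ℤ` and `𝔽_p`);
* `sUnits S : Rep ℤ G_ℚ`                      : the `S`-units `𝔼` of `ℚ̄`;
* `muToE`, `powE`                             : the Kummer sequence `0 → μ_p → 𝔼 → 𝔼`;
* `locUnitsMap q`                             : `ℚ̄ˣ → ℚ̄_qˣ`, equivariant along `G_{ℚ_q} → G_ℚ`.
-/
import Fermat.Agent.S55.PT.Coh
import Fermat.Agent.S55.Spec.Tower
import Fermat.Agent.S55.Bridge.MuP
import Fermat.Agent.S55.Bridge.InertiaConj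

set_option autoImplicit false

noncomputable section

namespace Fermat.Agent.S55.K

open groupCohomology Fermat.Agent.S55.PT Fermat.Agent.S55.Bridge
open scoped Pointwise

/-- `ℚ̄`. -/
abbrev Qbar : Type := AlgebraicClosure ℚ

/-! ### 1. Degree 3 -/

section Deg3

variable {G : Type} [Group G]

/-- Level-constant 3-cochains. -/
def IsLC₃ (L : LevelSys G) {X : Type*} (f : G × G × G → X) : Prop :=
  ∃ U ∈ L.levels, ∀ g₁ g₂ g₃ s₁ s₂ s₃ : G, s₁ ∈ U → s₂ ∈ U → s₃ ∈ U →
    f (g₁ * s₁, g₂ * s₂, g₃ * s₃) = f (g₁, g₂, g₃)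

variable {k : Type} [CommRing k]

/-- The differential `C³ → C⁴` of inhomogeneous cochains. -/
def d34 (A : Rep.{0, 0, 0} k G) (f : G × G × G → A) : G × G × G × G → A := fun x =>
  A.ρ x.1 (f (x.2.1, x.2.2.1, x.2.2.2)) - f (x.1 * x.2.1, x.2.2.1, x.2.2.2)
    + f (x.1, x.2.1 * x.2.2.1, x.2.2.2) - f (x.1, x.2.1, x.2.2.1 * x.2.2.2)
    + f (x.1, x.2.1, x.2.2.1)

/-- `H³_L(A) = 0`: every level-constant 3-cocycle is the coboundary of a level-constant
2-cochain. -/
def H3Vanish (L : LevelSys G) (A : Rep.{0, 0, 0} k G) : Prop :=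
  ∀ f : G × G × G → A, IsLC₃ L f → d34 A f = 0 → ∃ b ∈ L.C2 A, (d₂₃ A).hom b = f

/-- `H³_L(A)[n] = 0`. -/
def H3TorsVanish (L : LevelSys G) (A : Rep.{0, 0, 0} k G) (n : ℕ) : Prop :=
  ∀ f : G × G × G → A, IsLC₃ L f → d34 A f = 0 →
    (∃ b ∈ L.C2 A, (d₂₃ A).hom b = n • f) → ∃ b ∈ L.C2 A, (d₂₃ A).hom b = f

/-- `H²_L(A)` is `n`-divisible (cochain form). -/
def H2Divisible (L : LevelSys G) (A : Rep.{0, 0, 0} k G) (n : ℕ) : Prop :=
  ∀ f ∈ L.Z2 A, ∃ f' ∈ L.Z2 A, f - n • f' ∈ L.B2 A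

end Deg3

/-! ### 2. Induced modules -/

section Ind

variable {k : Type} [CommRing k] {G H : Type} [Group G] [Group H]

/-- The representation of `H` on `(G ⧸ V →₀ A)`: `h • (x ⊗ a) = (φ h • x) ⊗ (h • a)`. -/
def indρ (φ : H →* G) (V : Subgroup G) (A : Rep.{0, 0, 0} k H) :
    Representation k H ((G ⧸ V) →₀ A) where
  toFun h := (Finsupp.lmapDomain A k (fun x : G ⧸ V => φ h • x)).comp
    (Finsupp.mapRange.linearMap (A.ρ h))
  map_one' := by
    ext x a : 2
    simp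
  map_mul' h h' := by
    ext x a : 2
    simp [mul_smul]

@[simp] lemma indρ_single (φ : H →* G) (V : Subgroup G) (A : Rep.{0, 0, 0} k H) (h : H)
    (x : G ⧸ V) (a : A) :
    indρ φ V A h (Finsupp.single x a) = Finsupp.single (φ h • x) (A.ρ h a) := by
  simp [indρ]

/-- `Ind_V A = (G ⧸ V →₀ A)` as a representation of `H` (`H` acts on `G ⧸ V` through `φ`). -/
def ind (φ : H →* G) (V : Subgroup G) (A : Rep.{0, 0, 0} k H) : Rep.{0, 0, 0} k H :=
  Rep.of (indρ φ V A)

/-- Global induced module: `Ind_V A` for `A : Rep k G`. -/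
abbrev indG (V : Subgroup G) (A : Rep.{0, 0, 0} k G) : Rep.{0, 0, 0} k G :=
  ind (MonoidHom.id G) V A

/-- The augmentation `Ind_V A → A`, `x ⊗ a ↦ a`. -/
def aug (φ : H →* G) (V : Subgroup G) (A : Rep.{0, 0, 0} k H) : ind φ V A →ₗ[k] A :=
  Finsupp.lsum k (fun _ : G ⧸ V => (LinearMap.id : A →ₗ[k] A))

/-- The transition map `Ind_U A → Ind_V A` for `U ≤ V`. -/
def indProj (φ : H →* G) {U V : Subgroup G} (h : U ≤ V) (A : Rep.{0, 0, 0} k H) :
    ind φ U A →ₗ[k] ind φ V A :=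
  Finsupp.lmapDomain A k (Quotient.map' id fun a b hab => by
    rw [QuotientGroup.leftRel_apply] at hab ⊢
    exact h hab)

/-- Functoriality in the coefficients. -/
def indMap (φ : H →* G) (V : Subgroup G) {A B : Rep.{0, 0, 0} k H} (f : A →ₗ[k] B) :
    ind φ V A →ₗ[k] ind φ V B :=
  Finsupp.mapRange.linearMap f

end Ind

/-! ### 3. `S`-units, Kummer maps, local maps -/

section SUnits

variable (S : Finset Nat.Primes)

/-- A valuation subring of `ℚ̄` is *outside `S`* if it lies over no prime of `S`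
(this includes the trivial valuation subring). -/
def OutsideS (A : ValuationSubring Qbar) : Prop := ∀ q ∈ S, ¬ A.LiesOverPrime ((q : Nat.Primes) : ℕ)

/-- `x ∈ ℚ̄ˣ` is an `S`-unit: a unit of every valuation subring of `ℚ̄` outside `S`. -/
def IsSUnit (x : Qbarˣ) : Prop :=
  ∀ A : ValuationSubring Qbar, OutsideS S A → (x : Qbar) ∈ A ∧ ((x⁻¹ : Qbarˣ) : Qbar) ∈ A

variable {S}

lemma OutsideS.smul {A : ValuationSubring Qbar} (hA : OutsideS S A) (σ : GQ) :
    OutsideS S (σ • A) := by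
  intro q hq h
  apply hA q hq
  have := liesOverPrime_smul (σ • A) σ⁻¹ (q : ℕ) h
  rwa [inv_smul_smul] at this

lemma IsSUnit.smul {x : Qbarˣ} (hx : IsSUnit S x) (σ : GQ) : IsSUnit S (σ • x) := by
  intro A hA
  have h := hx (σ⁻¹ • A) (hA.smul σ⁻¹)
  have key : ∀ y : Qbar, y ∈ σ⁻¹ • A → σ y ∈ A := by
    intro y hy
    rw [ValuationSubring.mem_pointwise_smul_iff_inv_smul_mem, inv_inv] at hy
    exact hy
  refine ⟨key _ h.1, ?_⟩
  have := key _ h.2
  simpa using this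

variable (S)

/-- The `S`-units, as a `ℤ`-submodule of `Additive ℚ̄ˣ`. -/
def sUnitsSub : Submodule ℤ (Additive Qbarˣ) where
  carrier := {x | IsSUnit S x.toMul}
  add_mem' := by
    intro a b ha hb A hA
    obtain ⟨h1, h2⟩ := ha A hA
    obtain ⟨h3, h4⟩ := hb A hA
    refine ⟨?_, ?_⟩
    · simpa using A.mul_mem _ _ h1 h3
    · simpa [mul_comm] using A.mul_mem _ _ h2 h4
  zero_mem' := by
    intro A _
    simp
  smul_mem' := by
    intro n a ha
    have hneg : ∀ b : Additive Qbarˣ, IsSUnit S b.toMul → IsSUnit S (-b).toMul := by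
      intro b hb A hA
      obtain ⟨h1, h2⟩ := hb A hA
      exact ⟨by simpa using h2, by simpa using h1⟩
    have hnat : ∀ m : ℕ, IsSUnit S (m • a).toMul := by
      intro m A hA
      obtain ⟨h1, h2⟩ := ha A hA
      refine ⟨?_, ?_⟩
      · simpa using pow_mem h1 m
      · simpa using pow_mem h2 m
    obtain ⟨m, rfl | rfl⟩ := Int.eq_nat_or_neg n
    · simpa using hnat m
    · simpa using hneg _ (hnat m)

/-- `𝔼 = 𝒪_S(ℚ̄)ˣ`, the `S`-units of `ℚ̄`, as a representation of `G_ℚ`. -/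
def sUnits : Rep.{0, 0, 0} ℤ GQ :=
  Rep.of ((Representation.ofMulDistribMulAction GQ Qbarˣ).subrepresentation (sUnitsSub S)
    (fun σ _ hx => IsSUnit.smul hx σ))

/-- The inclusion `𝔼 → ℚ̄ˣ`. -/
def sUnitsIncl : sUnits S →ₗ[ℤ] Tow.unitsQbar := (sUnitsSub S).subtype

end SUnits

section Kummer

variable (p : ℕ) [Fact p.Prime] (S : Finset Nat.Primes)

lemma isSUnit_of_pow_eq_one {x : Qbarˣ} {n : ℕ} (hn : n ≠ 0) (hx : x ^ n = 1) : IsSUnit S x := by
  intro A _
  have h1 : A.valuation (x : Qbar) ^ n = 1 := by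
    rw [← map_pow, ← Units.val_pow_eq_pow_val, hx, Units.val_one, map_one]
  have h2 : A.valuation (x : Qbar) = 1 := (pow_eq_one_iff_of_nonneg zero_le hn).1 h1
  have h3 : A.valuation ((x⁻¹ : Qbarˣ) : Qbar) = 1 := by
    rw [Units.val_inv_eq_inv_val, map_inv₀, h2, inv_one]
  exact ⟨(A.valuation_le_one_iff _).1 h2.le, (A.valuation_le_one_iff _).1 h3.le⟩

/-- The inclusion `μ_p → 𝔼` (additive; `μ_p` is an `𝔽_p`-module, `𝔼` a `ℤ`-module). -/
def muToE : Bridge.muP p →+ sUnits S where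
  toFun x := ⟨Additive.ofMul ((Bridge.MuP.root (p := p) x : rootsOfUnity p Qbar) : Qbarˣ),
    isSUnit_of_pow_eq_one S (Fact.out : p.Prime).ne_zero
      ((mem_rootsOfUnity p _).1 (Bridge.MuP.root (p := p) x).2)⟩
  map_zero' := rfl
  map_add' _ _ := rfl

lemma muToE_injective : Function.Injective (muToE p S) := by
  intro x y h
  have h1 : ((Bridge.MuP.root (p := p) x : rootsOfUnity p Qbar) : Qbarˣ)
      = ((Bridge.MuP.root (p := p) y : rootsOfUnity p Qbar) : Qbarˣ) :=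
    congrArg (fun z : sUnits S => Additive.toMul (sUnitsIncl S z)) h
  exact Bridge.MuP.root_injective (Subtype.ext h1)

end Kummer

section Local

variable (q : Nat.Primes)

/-- The map `ℚ̄ˣ → ℚ̄_qˣ` induced by the Prelude's `padicEmbedding`. -/
def locUnitsMap : Tow.unitsQbar →ₗ[ℤ] Tow.unitsQpbar q :=
  letI : Fact (q : ℕ).Prime := ⟨q.2⟩
  (MonoidHom.toAdditive (Units.map (padicEmbedding (q : ℕ)).toRingHom.toMonoidHom)).toIntLinearMap

/-- `𝔼 → ℚ̄_qˣ`. -/
def locE (S : Finset Nat.Primes) : sUnits S →ₗ[ℤ] Tow.unitsQpbar q :=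
  (locUnitsMap q).comp (sUnitsIncl S)

/-- `Ind_V 𝔼 → Ind_V ℚ̄_qˣ` (equivariant along `G_{ℚ_q} → G_ℚ`). -/
def indLocE (S : Finset Nat.Primes) (V : Subgroup GQ) :
    indG V (sUnits S) →ₗ[ℤ] ind (rl q) V (Tow.unitsQpbar q) :=
  Finsupp.mapRange.linearMap (locE q S)

end Local

section IndKummer

variable (p : ℕ) [Fact p.Prime] (S : Finset Nat.Primes)

/-- `Ind_V μ_p → Ind_V 𝔼`. -/
def indMuToE (V : Subgroup GQ) : indG V (muP p) →+ indG V (sUnits S) :=
  Finsupp.mapRange.addMonoidHom (muToE p S)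

end IndKummer


end Fermat.Agent.S55.K

end
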