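/-
S55 moonshot — LAYER K (global Kummer bridge), interface.   Architect: helper4.
Namespace `Fermat.Agent.S55.K`.  NO sorry.  Blueprint + leaf table: `coord/S55-K.md` (origin/helper4).

Spec pattern: every interface is a `def XxxSpec : Prop`; producers prove `theorem xxx : XxxSpec`
or `theorem xxx_of (h : YyySpec …) : XxxSpec` in `Fermat/Agent/S55/K/<Leaf>H<seat>.lean`,
namespace `Fermat.Agent.S55.K.H<seat>`.

Everything is COCHAIN-LEVEL on `G_ℚ` with the level system `globalLevels S` (and `localLevels q` on the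
Prelude's local groups): no quotient types, no colimits, no `Ext`.
`μ = Bridge.muP p`, `𝔼 = sUnits S` (S-units of `ℚ̄`), `Ind_V A = indG V A = (G_ℚ ⧸ V →₀ A)`.

PART A  outputs of layer K for layer D (route C′):   A1 `FinH1Spec`, A3 `SurjH2Spec`, A8 `CapSpec`
        (A5/A5′/A7 are in `SpecTop.lean`, after `PT/Spec.lean` of helper835 is frozen).
PART B  K-top reductions (formal, cochain level):     `H3FinSpec`, `H3IndMuSpec`
PART C  inputs of layer K (= what class field theory must deliver, in cochain form):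
        `KummerSpec` (KUM), `H2DivESpec` (GO1), `H3TorsESpec` (GO2), `HasseESpec` (GO3),
        `NormCapSpec` (GO6), `FinESpec` (GO7).
-/
import Fermat.Agent.S55.K.Defs

set_option autoImplicit false

noncomputable section

namespace Fermat.Agent.S55.K

open groupCohomology Fermat.Agent.S55.PT Fermat.Agent.S55.Bridge

variable (p : ℕ) [Fact p.Prime] (S : Finset Nat.Primes)

/-! ### PART A — outputs -/

/-- **A1 (FIN-glob).** `H¹_S(N)` is finite-dimensional. -/
def FinH1Spec : Prop :=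
  p ≠ 2 → ExtCitation.pPrime p ∈ S →
  ∀ N : Rep.{0, 0, 0} (ZMod p) GQ, FiniteDimensional (ZMod p) N → (globalLevels S).IsUSmooth N →
    Module.Finite (ZMod p) ((globalLevels S).H1 N)

/-- **A3 (SURJ2-glob).** `H²_S` is right exact on finite modules (`cd_p G_S ≤ 2`). -/
def SurjH2Spec : Prop :=
  p ≠ 2 → ExtCitation.pPrime p ∈ S →
  ∀ P N : Rep.{0, 0, 0} (ZMod p) GQ, FiniteDimensional (ZMod p) P → FiniteDimensional (ZMod p) N →
    (globalLevels S).IsUSmooth P → (globalLevels S).IsUSmooth N →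
    ∀ (φ : P →ₗ[ZMod p] N) (hφ : IsEquivariant φ), Function.Surjective φ →
      Function.Surjective (pushH2 φ hφ (globalLevels S))

/-- **A8 (CAP)**, cochain form.  For every level `V` there is a normal level `U ≤ V` such that
every level-constant 2-cocycle of `Ind_U μ` which is locally a (level-constant) coboundary at all
`q ∈ S` becomes a level-constant coboundary in `Ind_V μ`. -/
def CapSpec : Prop :=
  p ≠ 2 → ExtCitation.pPrime p ∈ S →
  ∀ V ∈ (globalLevels S).levels, ∃ U ∈ (globalLevels S).levels, ∃ hUV : U ≤ V, U.Normal ∧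
    ∀ x ∈ (globalLevels S).Z2 (indG U (muP p)),
      (∀ q ∈ S, (x ∘ Prod.map (rl q) (rl q) : Gl q × Gl q → indG U (muP p)) ∈
        (localLevels q).B2 (Rep.res (rl q) (indG U (muP p)))) →
      (indProj (MonoidHom.id GQ) hUV (muP p) ∘ x : GQ × GQ → indG V (muP p)) ∈
        (globalLevels S).B2 (indG V (muP p))

/-! ### PART B — formal reductions inside layer K -/

/-- `H³_S(R) = 0` for every finite module `R`. -/
def H3FinSpec : Prop :=
  p ≠ 2 → ExtCitation.pPrime p ∈ S →
  ∀ R : Rep.{0, 0, 0} (ZMod p) GQ, FiniteDimensional (ZMod p) R → (globalLevels S).IsUSmooth R →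
    H3Vanish (globalLevels S) R

/-- `H³_S(Ind_V μ) = 0` for every level `V` (`= H³(G_S(K_V), μ_p) = 0`). -/
def H3IndMuSpec : Prop :=
  p ≠ 2 → ExtCitation.pPrime p ∈ S →
  ∀ V ∈ (globalLevels S).levels, H3Vanish (globalLevels S) (indG V (muP p))

/-! ### PART C — inputs (arithmetic, cochain form) -/

/-- **KUM.** The `S`-smooth `S`-units are `p`-divisible (`p ∈ S`): an `S`-unit fixed by a level
has a `p`-th root which is fixed by a level. -/
def KummerSpec : Prop :=
  ExtCitation.pPrime p ∈ S →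
  ∀ x : sUnits S, (∃ U ∈ (globalLevels S).levels, ∀ s ∈ U, (sUnits S).ρ s x = x) →
    ∃ y : sUnits S, p • y = x ∧ ∃ U ∈ (globalLevels S).levels, ∀ s ∈ U, (sUnits S).ρ s y = y

/-- **GO1.** `H²(G_S(K_V), 𝒪_Sˣ)` is `p`-divisible. -/
def H2DivESpec : Prop :=
  p ≠ 2 → ExtCitation.pPrime p ∈ S →
  ∀ V ∈ (globalLevels S).levels, H2Divisible (globalLevels S) (indG V (sUnits S)) p

/-- **GO2.** `H³(G_S(K_V), 𝒪_Sˣ)[p] = 0`. -/
def H3TorsESpec : Prop :=
  p ≠ 2 → ExtCitation.pPrime p ∈ S →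
  ∀ V ∈ (globalLevels S).levels, H3TorsVanish (globalLevels S) (indG V (sUnits S)) p

/-- **GO3 (Hasse principle for `S`-units).** A class of `H²(G_S(K_V), 𝒪_Sˣ)[p]` which is
trivial in `H²(G_q, Ind_V ℚ̄_qˣ)` for all `q ∈ S` is trivial. -/
def HasseESpec : Prop :=
  p ≠ 2 → ExtCitation.pPrime p ∈ S →
  ∀ V ∈ (globalLevels S).levels, ∀ x ∈ (globalLevels S).Z2 (indG V (sUnits S)),
    p • x ∈ (globalLevels S).B2 (indG V (sUnits S)) →
    (∀ q ∈ S, (indLocE q S V ∘ x ∘ Prod.map (rl q) (rl q) :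
        Gl q × Gl q → ind (rl q) V (Tow.unitsQpbar q)) ∈
      (localLevels q).B2 (ind (rl q) V (Tow.unitsQpbar q))) →
    x ∈ (globalLevels S).B2 (indG V (sUnits S))

/-- **GO6 (existence mod `p`, cohomological form).** For every level `V` there is a normal level
`U ≤ V` with `im(H¹_S(Ind_U 𝔼) → H¹_S(Ind_V 𝔼)) ⊂ p·H¹_S(Ind_V 𝔼)`
(`H¹_S(Ind_V 𝔼) = Cl_S(K_V)`, the map is the norm: `K_U ⊇` the `p`-Hilbert `S`-class field). -/
def NormCapSpec : Prop :=
  p ≠ 2 → ExtCitation.pPrime p ∈ S →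
  ∀ V ∈ (globalLevels S).levels, ∃ U ∈ (globalLevels S).levels, ∃ hUV : U ≤ V, U.Normal ∧
    ∀ z ∈ (globalLevels S).Z1 (indG U (sUnits S)),
      ∃ w ∈ (globalLevels S).Z1 (indG V (sUnits S)),
        (indProj (MonoidHom.id GQ) hUV (sUnits S) ∘ z - p • w : GQ → indG V (sUnits S)) ∈
          LevelSys.B1 (indG V (sUnits S))

/-- **GO7 (finiteness).** `(Ind_V 𝔼)^{G_ℚ}/p = 𝒪_{K_V,S}ˣ/p` and `H¹_S(Ind_V 𝔼)[p] = Cl_S(K_V)[p]`
are finite: there are finitely many invariants `e_i` and cocycles `z_j` such that every invariant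
is `≡ Σ n_i e_i` mod `p` and every `p`-torsion class is `Σ n_j [z_j]`. -/
def FinESpec : Prop :=
  ExtCitation.pPrime p ∈ S →
  ∀ V ∈ (globalLevels S).levels,
    (∃ T : Finset (indG V (sUnits S)), ∀ e : indG V (sUnits S),
        (∀ g : GQ, (indG V (sUnits S)).ρ g e = e) →
        ∃ e' : indG V (sUnits S), (∀ g : GQ, (indG V (sUnits S)).ρ g e' = e') ∧
          e - p • e' ∈ Submodule.span ℤ (T : Set (indG V (sUnits S)))) ∧
    (∃ T : Finset (GQ → indG V (sUnits S)), ∀ z ∈ (globalLevels S).Z1 (indG V (sUnits S)),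
        p • z ∈ LevelSys.B1 (indG V (sUnits S)) →
        ∃ t ∈ Submodule.span ℤ (T : Set (GQ → indG V (sUnits S))),
          z - t ∈ LevelSys.B1 (indG V (sUnits S)))

end Fermat.Agent.S55.K

end
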