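import Fermat.Agent.S55.K.Spec
import Fermat.Agent.S55.PT.Spec

/-!
# S55 / layer K → layer D adapters (helper723)

The outputs of layer K (`K/Spec.lean`, cochain form, coefficients `Bridge.muP p`, induced
modules `K.indG`) in the exact shape of the inputs of layer D (`PT/Spec.lean`, coefficients
`PT.mu p = ofChar (cycloChar p)`, induced modules `PT.indRep`):

* `surj2Glob_of : K.SurjH2Spec p S → p ≠ 2 → pPrime p ∈ S → PT.Surj2GlobSpec p S`  (A3);
* `cap_of       : K.CapSpec p S → p ≠ 2 → pPrime p ∈ S → PT.CapSpec p S`          (A8).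
-/

set_option autoImplicit false
set_option linter.unusedSectionVars false
set_option linter.style.haveILetI false

noncomputable section

namespace Fermat.Agent.S55.K.H723

open groupCohomology Fermat.Agent.S55.PT Fermat.Agent.S55.Bridge ExtCitation

variable (p : ℕ) [Fact p.Prime] (S : Finset Nat.Primes)

/-- **A3**: the `K`-form of right exactness of `H²_S` gives the `PT`-form. -/
theorem surj2Glob_of (h : Fermat.Agent.S55.K.SurjH2Spec p S) (hp2 : p ≠ 2)
    (hpS : pPrime p ∈ S) : Fermat.Agent.S55.PT.Surj2GlobSpec p S := by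
  intro P N φ hφ hP hPs hNs hsurj
  have hN : FiniteDimensional (ZMod p) N := by
    haveI := hP
    exact Module.Finite.of_surjective φ hsurj
  exact h hp2 hpS P N hP hN hPs hNs φ hφ hsurj

/-! ### comparison of the two induced modules -/

section Compare

/-- the coefficient identification `μ = ofChar χ_p ≃ μ_p` (any linear equivalence is
equivariant, both actions being scalar multiplication by `χ_p`) -/
def coeffEquiv : (mu p : Rep.{0, 0, 0} (ZMod p) GQ) ≃ₗ[ZMod p]
    (muP p : Rep.{0, 0, 0} (ZMod p) GQ) :=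
  muPLinearEquiv p

variable (U : Subgroup GQ)

/-- `Ind_U μ → Ind_U μ_p` (`PT` model to `K` model), coefficientwise `muPLinearEquiv`. -/
def toK : ((GQ ⧸ U) →₀ (mu p : Rep.{0, 0, 0} (ZMod p) GQ)) →ₗ[ZMod p]
    ((GQ ⧸ U) →₀ (muP p : Rep.{0, 0, 0} (ZMod p) GQ)) :=
  Finsupp.mapRange.linearMap (coeffEquiv p).toLinearMap

/-- `Ind_U μ_p → Ind_U μ` (`K` model to `PT` model). -/
def ofK : ((GQ ⧸ U) →₀ (muP p : Rep.{0, 0, 0} (ZMod p) GQ)) →ₗ[ZMod p]
    ((GQ ⧸ U) →₀ (mu p : Rep.{0, 0, 0} (ZMod p) GQ)) :=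
  Finsupp.mapRange.linearMap (coeffEquiv p).symm.toLinearMap

lemma toK_single (x : GQ ⧸ U) (m : (mu p : Rep.{0, 0, 0} (ZMod p) GQ)) :
    toK p U (Finsupp.single x m) = Finsupp.single x (coeffEquiv p m) := by
  rw [toK, Finsupp.mapRange.linearMap_apply, Finsupp.mapRange_single]
  rfl

lemma ofK_single (x : GQ ⧸ U) (m : (muP p : Rep.{0, 0, 0} (ZMod p) GQ)) :
    ofK p U (Finsupp.single x m) = Finsupp.single x ((coeffEquiv p).symm m) := by
  rw [ofK, Finsupp.mapRange.linearMap_apply, Finsupp.mapRange_single]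
  rfl

lemma ofK_toK (a : (GQ ⧸ U) →₀ (mu p : Rep.{0, 0, 0} (ZMod p) GQ)) :
    ofK p U (toK p U a) = a := by
  have h : (ofK p U) ∘ₗ (toK p U) = LinearMap.id := by
    apply Finsupp.lhom_ext
    intro x m
    rw [LinearMap.comp_apply, toK_single, ofK_single, LinearEquiv.symm_apply_apply]
    rfl
  exact LinearMap.congr_fun h a

lemma mu_ρ_apply (g : GQ) (m : (mu p : Rep.{0, 0, 0} (ZMod p) GQ)) :
    (mu p).ρ g m = ((cycloChar p g : (ZMod p)ˣ) : ZMod p) • m := by
  show ((Representation.trivial (ZMod p) GQ (ZMod p)).twist (cycloChar p)) g m = _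
  simp [Representation.twist_apply_apply]

lemma muP_ρ_apply (g : GQ) (m : (muP p : Rep.{0, 0, 0} (ZMod p) GQ)) :
    (muP p).ρ g m = ((cycloChar p g : (ZMod p)ˣ) : ZMod p) • m := rfl

/-- the `K`-action on `Ind_U μ_p`, as a linear map of `Finsupp`s -/
def actK (g : GQ) : ((GQ ⧸ U) →₀ (muP p : Rep.{0, 0, 0} (ZMod p) GQ)) →ₗ[ZMod p]
    ((GQ ⧸ U) →₀ (muP p : Rep.{0, 0, 0} (ZMod p) GQ)) :=
  indρ (MonoidHom.id GQ) U (muP p) g

lemma actK_single (g : GQ) (x : GQ ⧸ U) (m : (muP p : Rep.{0, 0, 0} (ZMod p) GQ)) :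
    actK p U g (Finsupp.single x m) = Finsupp.single (g • x) ((muP p).ρ g m) :=
  indρ_single (MonoidHom.id GQ) U (muP p) g x m

variable {U} in
/-- the `K`-level change `Ind_U μ_p → Ind_V μ_p`, as a linear map of `Finsupp`s -/
def projK {V : Subgroup GQ} (h : U ≤ V) :
    ((GQ ⧸ U) →₀ (muP p : Rep.{0, 0, 0} (ZMod p) GQ)) →ₗ[ZMod p]
      ((GQ ⧸ V) →₀ (muP p : Rep.{0, 0, 0} (ZMod p) GQ)) :=
  indProj (MonoidHom.id GQ) h (muP p)

variable {U} in
lemma projK_single {V : Subgroup GQ} (h : U ≤ V) (x : GQ ⧸ U)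
    (m : (muP p : Rep.{0, 0, 0} (ZMod p) GQ)) :
    projK p h (Finsupp.single x m) = Finsupp.single (Subgroup.quotientMapOfLE h x) m := by
  show Finsupp.lmapDomain _ _ _ (Finsupp.single x m) = _
  rw [Finsupp.lmapDomain_apply, Finsupp.mapDomain_single]
  rfl

/-- `toK` is equivariant. -/
lemma toK_equivariant :
    IsEquivariant (A := indRep U (mu p)) (B := indG U (muP p)) (toK p U) := by
  intro g
  have h : (toK p U) ∘ₗ (indAct U (mu p) g) = (actK p U g) ∘ₗ (toK p U) := by
    apply Finsupp.lhom_ext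
    intro x m
    rw [LinearMap.comp_apply, LinearMap.comp_apply, indAct_single, toK_single, toK_single,
      actK_single, mu_ρ_apply, muP_ρ_apply, map_smul]
  exact fun a => LinearMap.congr_fun h a

/-- `ofK` is equivariant. -/
lemma ofK_equivariant :
    IsEquivariant (A := indG U (muP p)) (B := indRep U (mu p)) (ofK p U) := by
  intro g
  have h : (ofK p U) ∘ₗ (actK p U g) = (indAct U (mu p) g) ∘ₗ (ofK p U) := by
    apply Finsupp.lhom_ext
    intro x m
    rw [LinearMap.comp_apply, LinearMap.comp_apply, actK_single, ofK_single, ofK_single,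
      indAct_single, mu_ρ_apply, muP_ρ_apply, map_smul]
  exact fun a => LinearMap.congr_fun h a

variable {U} in
/-- compatibility of the level change maps -/
lemma toK_indLE {V : Subgroup GQ} (h : U ≤ V)
    (a : (GQ ⧸ U) →₀ (mu p : Rep.{0, 0, 0} (ZMod p) GQ)) :
    toK p V (indLE (mu p) h a) = projK p h (toK p U a) := by
  have hh : (toK p V) ∘ₗ (indLE (mu p) h) = (projK p h) ∘ₗ (toK p U) := by
    apply Finsupp.lhom_ext
    intro x m
    rw [LinearMap.comp_apply, LinearMap.comp_apply, indLE_single, toK_single, toK_single,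
      projK_single]
  exact LinearMap.congr_fun hh a

end Compare

/-- **A8**: the `K`-form of CAP gives the `PT`-form. -/
theorem cap_of (h : Fermat.Agent.S55.K.CapSpec p S) (hp2 : p ≠ 2)
    (hpS : pPrime p ∈ S) : Fermat.Agent.S55.PT.CapSpec p S := by
  intro V hV _ _
  obtain ⟨U, hU, hUV, hUn, hcap⟩ := h hp2 hpS V hV
  refine ⟨U, hUV, hU, hUn, fun x hx => ?_⟩
  obtain ⟨c, rfl⟩ := (globalLevels S).H2π_surjective _ x
  rw [pushH2_mk, LevelSys.H2π_eq_zero_iff, coe_pushZ2]
  -- the cocycle in the `K` model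
  have hcK : (toK p U ∘ (c : GQ × GQ → indRep U (mu p)) : GQ × GQ → indG U (muP p)) ∈
      (globalLevels S).Z2 (indG U (muP p)) :=
    push_mem_Z2 (A := indRep U (mu p)) (B := indG U (muP p)) (toK p U) (toK_equivariant p U)
      (globalLevels S) c.2
  -- it is locally a coboundary
  have hloc : ∀ q ∈ S, ((toK p U ∘ (c : GQ × GQ → indRep U (mu p))) ∘ Prod.map (rl q) (rl q) :
      Gl q × Gl q → indG U (muP p)) ∈
      (localLevels q).B2 (Rep.res (rl q) (indG U (muP p))) := by
    intro q hq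
    have h1 := congrFun (LinearMap.mem_ker.1 hx) ⟨q, hq⟩
    rw [loc2_apply, resH2_mk, Pi.zero_apply, LevelSys.H2π_eq_zero_iff, coe_resZ2] at h1
    exact push_mem_B2 (A := Rep.res (rl q) (indRep U (mu p)))
      (B := Rep.res (rl q) (indG U (muP p))) (toK p U)
      ((toK_equivariant p U).res (rl q)) (localLevels q) h1
  have h2 := hcap _ hcK hloc
  -- back to the `PT` model
  have h3 := push_mem_B2 (A := indG V (muP p)) (B := indRep V (mu p)) (ofK p V)
    (ofK_equivariant p V) (globalLevels S) h2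
  have h4 : (ofK p V ∘ (indProj (MonoidHom.id GQ) hUV (muP p) ∘
      (toK p U ∘ (c : GQ × GQ → indRep U (mu p)))) : GQ × GQ → indRep V (mu p)) =
      indLE (mu p) hUV ∘ (c : GQ × GQ → indRep U (mu p)) := by
    funext y
    exact (congrArg (ofK p V) (toK_indLE p hUV ((c : GQ × GQ → indRep U (mu p)) y)).symm).trans
      (ofK_toK p V _)
  exact Eq.mp (congrArg (fun f : GQ × GQ → indRep V (mu p) =>
    f ∈ (globalLevels S).B2 (indRep V (mu p))) h4) h3

end Fermat.Agent.S55.K.H723

end
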