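import Fermat.Agent.S55.K.Spec
import Fermat.Agent.S55.H696.Devissage
import Fermat.Agent.S55.PT.LevelsNormal
import Fermat.Agent.S55.PT.FiniteIndexH424
import Fermat.Agent.S55.H414.CycloLevel

/-!
# S55 / layer K, leaf K-T2 (dévissage): `h3Fin_of : H3IndMuSpec p S → H3FinSpec p S`   (helper696)

Exact Spec types of `K/Spec.lean` (helper4).  The abstract theorem is
`Fermat.Agent.S55.H696.devissage` (on main); here only the dictionary:

* `h3Vanish_iff`         : `K.H3Vanish L A ↔ H696.H3Van L A`;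
* `mem_levels_of_le`     : a subgroup of `G_ℚ` containing a level of `globalLevels S` is a level;
* `isUSmooth_muP`        : `G_{ℚ(ζ_p)}` is a level (`p ∈ S`) acting trivially on `μ_p`.

No twist step is needed: the Sylow preimage `H` used by `devissage` acts trivially on `μ_p`
automatically (a `p`-group acts trivially on a line over `𝔽_p`).
-/

set_option autoImplicit false
set_option linter.style.haveILetI false

noncomputable section

namespace Fermat.Agent.S55.K.H696

open groupCohomology Fermat.Agent.S55.PT Fermat.Agent.S55.Bridge Fermat.Agent.S55.K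
open ExtCitation

attribute [local instance] isAlgebraic_Qbar isGalois_Qbar

/-- Dictionary between the two cochain-level formulations of `H³ = 0`. -/
theorem h3Vanish_iff {G : Type} [Group G] {k : Type} [CommRing k] (L : LevelSys G)
    (A : Rep.{0, 0, 0} k G) : K.H3Vanish L A ↔ Fermat.Agent.S55.H696.H3Van L A := by
  have hcoc : ∀ f : G × G × G → A, d34 A f = 0 ↔ Fermat.Agent.S55.H696.IsCoc3 A f := by
    intro f
    constructor
    · intro h g₁ g₂ g₃ g₄
      exact congrFun h (g₁, g₂, g₃, g₄)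
    · intro h
      funext ⟨g₁, g₂, g₃, g₄⟩
      exact h g₁ g₂ g₃ g₄
  constructor
  · intro h z hz hzc
    obtain ⟨b, hb, hdb⟩ := h z hz ((hcoc z).2 hzc)
    exact ⟨b, hb, hdb⟩
  · intro h z hz hzc
    obtain ⟨b, hb, hdb⟩ := h z hz ((hcoc z).1 hzc)
    exact ⟨b, hb, hdb⟩

/-- A subgroup of `G_ℚ` containing a level is a level. -/
theorem mem_levels_of_le (S : Finset Nat.Primes) {U H : Subgroup GQ}
    (hU : U ∈ (globalLevels S).levels) (hUH : U ≤ H) : H ∈ (globalLevels S).levels := by
  obtain ⟨F, hF, rfl⟩ := hU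
  haveI : FiniteDimensional ℚ F := hF.1
  have hopen : IsOpen (H : Set GQ) :=
    Subgroup.isOpen_mono hUH (IntermediateField.fixingSubgroup_isOpen F)
  have hclosed : IsClosed (H : Set GQ) := Subgroup.isClosed_of_isOpen H hopen
  have hfix : (IntermediateField.fixedField H).fixingSubgroup = H :=
    InfiniteGalois.fixingSubgroup_fixedField ⟨H, hclosed⟩
  refine ⟨IntermediateField.fixedField H, ⟨?_, ?_⟩, hfix.symm⟩
  · rw [← InfiniteGalois.isOpen_iff_finite, hfix]
    exact hopen
  · intro q hq A hA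
    rw [hfix]
    exact (hF.2 q hq A hA).trans hUH

/-- `μ_p` is uniformly smooth for `globalLevels S` if `p ∈ S`. -/
theorem isUSmooth_muP (p : ℕ) [Fact p.Prime] (S : Finset Nat.Primes)
    (hpS : ExtCitation.pPrime p ∈ S) : (globalLevels S).IsUSmooth (muP p) := by
  haveI : NeZero (p ^ 1) := ⟨pow_ne_zero 1 (Fact.out : p.Prime).ne_zero⟩
  refine ⟨(Fermat.Agent.S55.H414.cycloLevel (p ^ 1)).fixingSubgroup,
    ⟨_, Fermat.Agent.S55.H414.isUnramifiedOutside_cycloLevel p 1 S hpS, rfl⟩, ?_⟩
  intro s hs x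
  have hζ : s (Fermat.Agent.S55.H414.zetaBar (p ^ 1)) = Fermat.Agent.S55.H414.zetaBar (p ^ 1) :=
    (Fermat.Agent.S55.H414.mem_fixingSubgroup_cycloLevel_iff (p ^ 1) s).1 hs
  have hprim := Fermat.Agent.S55.H414.zetaBar_spec (p ^ 1)
  have h1 : cycloChar p s = 1 := by
    apply cycloChar_eq_one_of_fixes
    intro t ht
    have ht' : (t : AlgebraicClosure ℚ) ^ (p ^ 1) = 1 := by
      have := (mem_rootsOfUnity p t).1 ht
      rw [pow_one, ← Units.val_pow_eq_pow_val, this, Units.val_one]
    obtain ⟨i, -, hi⟩ := hprim.eq_pow_of_pow_eq_one ht'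
    rw [← hi, map_pow, hζ]
  have h2 : ∀ y : MuP p, muPRep p s y = y := by
    intro y
    rw [muPRep_apply_smul, h1, Units.val_one, one_smul]
  exact h2 x

/-- **K-T2** (dévissage), exact Spec types. -/
theorem h3Fin_of (p : ℕ) [Fact p.Prime] (S : Finset Nat.Primes) (h : H3IndMuSpec p S) :
    H3FinSpec p S := by
  intro hp2 hpS R hfd hRs
  rw [h3Vanish_iff]
  refine Fermat.Agent.S55.H696.devissage GQ (globalLevels S) p (muP p)
    (fun U hU => globalLevels_normal_cofinal724 S U hU)
    (Fermat.Agent.S55.PT.H424.globalFiniteIndex S) (MuP.finrank_eq_one p)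
    (isUSmooth_muP p S hpS) ?_ R hfd hRs
  intro H hH _
  obtain ⟨U, hU, hUH⟩ := hH
  exact (h3Vanish_iff (globalLevels S) (indG H (muP p))).1
    (h hp2 hpS H (mem_levels_of_le S hU hUH))

end Fermat.Agent.S55.K.H696

end
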