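/-
S55 moonshot — LAYER K, leaf K-T3 (helper397).

`h3IndMu_of : KummerSpec p S → H2DivESpec p S → H3TorsESpec p S → H3IndMuSpec p S`

Cochain-level proof (blueprint `coord/S55-K.md` §2, origin/helper4).
`M = Ind_V μ ⊂ E = Ind_V 𝔼`:  `c ∈ Z³_LC(M)`; `p·c = 0` ⇒ (GO2) `c = d b`, `b ∈ C²_LC(E)`;
`p·b ∈ Z²_LC(E)` ⇒ (GO1) `p·b = p·y + d a`; (KUM) `a = p·ã` with `ã`, `d ã` level-constant;
`b′ := b − y − d ã` is killed by `p`, hence comes from `C²_LC(M)`, and `d b′ = c`.
-/
import Fermat.Agent.S55.K.Spec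
import Fermat.Agent.S55.PT.LevelsNormal
import Fermat.Agent.S55.PT.FiniteIndexH424

set_option autoImplicit false

noncomputable section

namespace Fermat.Agent.S55.K.H397

open groupCohomology Fermat.Agent.S55.PT Fermat.Agent.S55.Bridge Fermat.Agent.S55.K

/-! ### 1. Abstract part: a level system on a group `G` -/

section Abstract

variable {G : Type} [Group G] (L : LevelSys G)
variable {k : Type} [CommRing k] (E : Rep.{0, 0, 0} k G)

/-- `e` is fixed by some level. -/
def Sm (e : E) : Prop := ∃ U ∈ L.levels, ∀ s ∈ U, E.ρ s e = e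

lemma sm_zero : Sm L E 0 := by
  obtain ⟨U, hU⟩ := L.nonempty
  exact ⟨U, hU, fun s _ => map_zero _⟩

/-- Finitely many smooth elements are fixed by a common level. -/
lemma exists_common_level (T : Finset E) (hT : ∀ e ∈ T, Sm L E e) :
    ∃ W ∈ L.levels, ∀ e ∈ T, ∀ s ∈ W, E.ρ s e = e := by
  classical
  induction T using Finset.induction_on with
  | empty =>
    obtain ⟨U, hU⟩ := L.nonempty
    exact ⟨U, hU, by simp⟩
  | insert a T ha ih =>
    obtain ⟨W, hW, h⟩ := ih (fun e he => hT e (Finset.mem_insert_of_mem he))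
    obtain ⟨U, hU, h'⟩ := hT a (Finset.mem_insert_self a T)
    obtain ⟨W', hW', hle⟩ := L.directed U hU W hW
    refine ⟨W', hW', fun e he s hs => ?_⟩
    rcases Finset.mem_insert.1 he with rfl | he
    · exact h' s (hle hs).1
    · exact h e he s (hle hs).2

variable {L E}

/-- KEY REMARK (K-I3, degree 1): if `a` and `d a` are constant modulo a normal subgroup `U`,
then all values of `a` are `U`-invariant. -/
lemma values_invariant {U : Subgroup G} (hn : U.Normal) (a : G → E)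
    (ha : ∀ g s, s ∈ U → a (g * s) = a g)
    (hda : ∀ g g' s s', s ∈ U → s' ∈ U →
      (d₁₂ E).hom a (g * s, g' * s') = (d₁₂ E).hom a (g, g'))
    (s : G) (hs : s ∈ U) (g : G) : E.ρ s (a g) = a g := by
  have h1 := hda 1 g s 1 hs U.one_mem
  simp only [d₁₂_hom_apply, one_mul, mul_one, map_one, Module.End.one_apply] at h1
  have h2 : a (s * g) = a g := by
    have e : s * g = g * (g⁻¹ * s * g⁻¹⁻¹) := by group
    rw [e]
    exact ha g _ (hn.conj_mem s hs g⁻¹)
  have h3 : a s = a 1 := by simpa using ha 1 s hs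
  rw [h2, h3] at h1
  have h4 : E.ρ s (a g) - a g = a g - a g := add_right_cancel h1
  rw [sub_self, sub_eq_zero] at h4
  exact h4

/-- Lifting through multiplication by `p` (K-I4 for `p : E → E`). -/
lemma exists_root_cochain (hF : L.FiniteIndex) (p : ℕ)
    (hkum : ∀ x : E, Sm L E x → ∃ y : E, p • y = x ∧ Sm L E y)
    {U : Subgroup G} (hU : U ∈ L.levels) (a : G → E)
    (ha : ∀ g s, s ∈ U → a (g * s) = a g)
    (hsm : ∀ g, Sm L E (a g)) :
    ∃ a' : G → E, p • a' = a ∧ (∀ g s, s ∈ U → a' (g * s) = a' g) ∧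
      ∃ W ∈ L.levels, ∀ s ∈ W, ∀ g, E.ρ s (a' g) = a' g := by
  classical
  have hfi : U.FiniteIndex := hF U hU
  let _ : Fintype (G ⧸ U) := Subgroup.fintypeQuotientOfFiniteIndex
  choose r hr hr' using fun x : {x : E // Sm L E x} => hkum x.1 x.2
  let q : G ⧸ U → E := fun c => r ⟨a c.out, hsm _⟩
  refine ⟨fun g => q (g : G ⧸ U), ?_, ?_, ?_⟩
  · funext g
    simp only [Pi.smul_apply, q]
    rw [hr]
    obtain ⟨u, hu⟩ := QuotientGroup.mk_out_eq_mul U g
    simp only [hu]
    exact ha g u u.2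
  · intro g s hs
    have e : ((g * s : G) : G ⧸ U) = (g : G ⧸ U) := by
      rw [QuotientGroup.eq]
      simpa using U.inv_mem hs
    simp only [e]
  · obtain ⟨W, hW, h⟩ := exists_common_level L E (Finset.univ.image q) (by
      intro e he
      obtain ⟨c, -, rfl⟩ := Finset.mem_image.1 he
      exact hr' _)
    exact ⟨W, hW, fun s hs g => h _ (Finset.mem_image_of_mem _ (Finset.mem_univ _)) s hs⟩

/-- `d a` is level-constant if `a` is constant modulo a normal level and has values fixed by a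
level. -/
lemma d12_isLC {U : Subgroup G} (hn : U.Normal) (hU : U ∈ L.levels) {W : Subgroup G}
    (hW : W ∈ L.levels) (a : G → E) (ha : ∀ g s, s ∈ U → a (g * s) = a g)
    (hfix : ∀ s ∈ W, ∀ g, E.ρ s (a g) = a g) : L.IsLC₂ ((d₁₂ E).hom a) := by
  obtain ⟨W', hW', hle⟩ := L.directed U hU W hW
  refine ⟨W', hW', fun g g' s s' hs hs' => ?_⟩
  simp only [d₁₂_hom_apply]
  have e1 : a (g' * s') = a g' := ha _ _ (hle hs').1
  have e2 : a (g * s) = a g := ha _ _ (hle hs).1
  have e3 : a (g * s * (g' * s')) = a (g * g') := by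
    have e : g * s * (g' * s') = g * g' * ((g'⁻¹ * s * g'⁻¹⁻¹) * s') := by group
    rw [e]
    exact ha _ _ (U.mul_mem (hn.conj_mem s (hle hs).1 g'⁻¹) (hle hs').1)
  rw [e1, e2, e3, map_mul, Module.End.mul_apply, hfix s (hle hs).2]

end Abstract

section Main

variable {G : Type} [Group G] {L : LevelSys G}
variable {k k' : Type} [CommRing k] [CommRing k']
variable {M : Rep.{0, 0, 0} k G} {E : Rep.{0, 0, 0} k' G}

lemma d34_comp (ι : M →+ E) (heq : ∀ g m, ι (M.ρ g m) = E.ρ g (ι m)) (c : G × G × G → M) :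
    d34 E (ι ∘ c) = ι ∘ d34 M c := by
  funext x
  simp only [d34, Function.comp_apply, map_add, map_sub, heq]

lemma d23_comp (ι : M →+ E) (heq : ∀ g m, ι (M.ρ g m) = E.ρ g (ι m)) (b : G × G → M) :
    (d₂₃ E).hom (ι ∘ b) = ι ∘ (d₂₃ M).hom b := by
  funext x
  simp only [d₂₃_hom_apply, Function.comp_apply, map_add, map_sub, heq]

lemma d23_d12 (a : G → E) : (d₂₃ E).hom ((d₁₂ E).hom a) = 0 := by
  have h := LinearMap.congr_fun (congrArg ModuleCat.Hom.hom (d₁₂_comp_d₂₃ E)) a
  exact h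

/-- **K-T3, abstract form.**  Let `ι : M → E` be an injective equivariant additive map whose
image is `E[p]`, and assume that the smooth part of `E` is `p`-divisible.  If `H²_L(E)` is
`p`-divisible and `H³_L(E)[p] = 0`, then `H³_L(M) = 0`. -/
theorem h3Vanish_of (hN : L.NormalCofinal) (hF : L.FiniteIndex) (p : ℕ)
    (ι : M →+ E) (hinj : Function.Injective ι)
    (heq : ∀ g m, ι (M.ρ g m) = E.ρ g (ι m))
    (hpM : ∀ m : M, p • m = 0)
    (htors : ∀ e : E, p • e = 0 → ∃ m, ι m = e)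
    (hkum : ∀ x : E, Sm L E x → ∃ y : E, p • y = x ∧ Sm L E y)
    (hdiv : H2Divisible L E p) (htv : H3TorsVanish L E p) : H3Vanish L M := by
  intro c hc hdc
  -- Step 1: `ι ∘ c = d b`
  have hc' : IsLC₃ L (ι ∘ c) := by
    obtain ⟨U, hU, h⟩ := hc
    exact ⟨U, hU, fun g₁ g₂ g₃ s₁ s₂ s₃ h₁ h₂ h₃ => by
      simp only [Function.comp_apply, h g₁ g₂ g₃ s₁ s₂ s₃ h₁ h₂ h₃]⟩
  have hdc' : d34 E (ι ∘ c) = 0 := by
    rw [d34_comp ι heq, hdc]
    funext x
    exact map_zero ι
  have hpc : p • (ι ∘ c) = 0 := by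
    funext x
    simp only [Pi.smul_apply, Function.comp_apply, Pi.zero_apply]
    rw [← map_nsmul, hpM, map_zero]
  obtain ⟨b, hb, hdb⟩ := htv (ι ∘ c) hc' hdc' ⟨0, (L.C2 E).zero_mem, by rw [map_zero, hpc]⟩
  -- Step 2: `p b = p y + d a`
  have hpb : p • b ∈ L.Z2 E := by
    refine ⟨?_, nsmul_mem hb p⟩
    show (d₂₃ E).hom (p • b) = 0
    rw [map_nsmul, hdb, hpc]
  obtain ⟨y, hy, a, ha, hda⟩ := hdiv (p • b) hpb
  -- Step 3: `a = p a'`
  have hlc : L.IsLC₂ (p • b - p • y) := (L.C2 E).sub_mem (nsmul_mem hb p) (nsmul_mem hy.2 p)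
  obtain ⟨U₁, hU₁, h₁⟩ := hlc
  obtain ⟨U₂, hU₂, h₂⟩ := ha
  obtain ⟨U₃, hU₃, hle₃⟩ := L.directed U₁ hU₁ U₂ hU₂
  obtain ⟨U, hU, hleU, hn⟩ := hN U₃ hU₃
  have haU : ∀ g s, s ∈ U → a (g * s) = a g := fun g s hs => h₂ g s (hle₃ (hleU hs)).2
  have hdaU : ∀ g g' s s', s ∈ U → s' ∈ U →
      (d₁₂ E).hom a (g * s, g' * s') = (d₁₂ E).hom a (g, g') := by
    intro g g' s s' hs hs'
    rw [hda]
    exact h₁ g g' s s' (hle₃ (hleU hs)).1 (hle₃ (hleU hs')).1
  have hinv := values_invariant hn a haU hdaU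
  obtain ⟨a', hpa', ha'U, W, hW, hfix⟩ := exists_root_cochain hF p hkum hU a haU
    (fun g => ⟨U, hU, fun s hs => hinv s hs g⟩)
  have hda' : L.IsLC₂ ((d₁₂ E).hom a') := d12_isLC hn hU hW a' ha'U hfix
  -- Step 4: `b' = b - y - d a'`
  obtain ⟨b', hb'def⟩ : ∃ b' : G × G → E, b' = b - y - (d₁₂ E).hom a' := ⟨_, rfl⟩
  have hb'C : b' ∈ L.C2 E := by
    rw [hb'def]
    exact (L.C2 E).sub_mem ((L.C2 E).sub_mem hb hy.2) hda'
  have hpb' : p • b' = 0 := by
    rw [hb'def, smul_sub, smul_sub, ← map_nsmul, hpa', hda, sub_self]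
  have hdb' : (d₂₃ E).hom b' = ι ∘ c := by
    have h1 : (d₂₃ E).hom y = 0 := hy.1
    rw [hb'def, map_sub, map_sub, hdb, h1, d23_d12, sub_zero, sub_zero]
  have hval : ∀ x, ∃ m, ι m = b' x := fun x => htors _ (by simpa using congrFun hpb' x)
  choose b'' hb'' using hval
  have hιb : ι ∘ b'' = b' := funext hb''
  refine ⟨b'', ?_, ?_⟩
  · obtain ⟨W', hW', h⟩ := hb'C
    refine ⟨W', hW', fun g g' s s' hs hs' => hinj ?_⟩
    rw [hb'', hb'']
    exact h g g' s s' hs hs'
  · funext x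
    apply hinj
    have h := congrFun (d23_comp ι heq b'') x
    rw [hιb, hdb'] at h
    exact h.symm

end Main

/-! ### 2. Induced modules -/

section Ind

variable {G : Type} [Group G] {L : LevelSys G}
variable {k : Type} [CommRing k] (A : Rep.{0, 0, 0} k G)

lemma smul_coset_of_normal {U V : Subgroup G} (hn : U.Normal) (hle : U ≤ V) (s : G)
    (hs : s ∈ U) (c : G ⧸ V) : s • c = c := by
  induction c using QuotientGroup.induction_on with
  | H g =>
    rw [MulAction.Quotient.smul_mk, QuotientGroup.eq]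
    have h : (s • g)⁻¹ * g = g⁻¹ * s⁻¹ * g⁻¹⁻¹ := by
      rw [smul_eq_mul]
      group
    rw [h]
    exact hle (hn.conj_mem _ (U.inv_mem hs) _)

lemma indρ_of_trivial (V : Subgroup G) (s : G) (h : ∀ c : G ⧸ V, s • c = c)
    (x : (G ⧸ V) →₀ A) :
    indρ (MonoidHom.id G) V A s x = Finsupp.mapRange (A.ρ s) (map_zero _) x := by
  have e : (fun c : G ⧸ V => (MonoidHom.id G) s • c) = id := funext h
  simp only [indρ, MonoidHom.coe_mk, OneHom.coe_mk, LinearMap.coe_comp, Function.comp_apply,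
    Finsupp.mapRange.linearMap_apply, Finsupp.lmapDomain_apply, e, Finsupp.mapDomain_id]

/-- The smooth part of `Ind_V A` is `p`-divisible if the smooth part of `A` is. -/
lemma kummer_ind (hN : L.NormalCofinal) (p : ℕ)
    (hkum : ∀ x : A, Sm L A x → ∃ y : A, p • y = x ∧ Sm L A y)
    {V : Subgroup G} (hV : V ∈ L.levels) (x : indG V A) (hx : Sm L (indG V A) x) :
    ∃ y : indG V A, p • y = x ∧ Sm L (indG V A) y := by
  classical
  obtain ⟨U, hU, hx⟩ := hx
  obtain ⟨U₁, hU₁, hle₁⟩ := L.directed U hU V hV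
  obtain ⟨U', hU', hle', hn⟩ := hN U₁ hU₁
  have htriv : ∀ s ∈ U', ∀ c : G ⧸ V, s • c = c := fun s hs c =>
    smul_coset_of_normal hn (fun t ht => (hle₁ (hle' ht)).2) s hs c
  obtain ⟨x', hx'⟩ : ∃ x' : (G ⧸ V) →₀ A, x' = x := ⟨x, rfl⟩
  have hcoef : ∀ c, Sm L A (x' c) := fun c => ⟨U', hU', fun s hs => by
    have h := hx s (hle₁ (hle' hs)).1
    have h' : indρ (MonoidHom.id G) V A s x' = x' := by rw [hx']; exact h
    rw [indρ_of_trivial A V s (htriv s hs)] at h'
    have h'' := DFunLike.congr_fun h' c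
    simpa using h''⟩
  choose r hr hr' using fun z : {z : A // Sm L A z} => hkum z.1 z.2
  let y : (G ⧸ V) →₀ A := Finsupp.onFinset x'.support
    (fun c => if x' c = 0 then 0 else r ⟨x' c, hcoef c⟩) (by
      intro c hc
      rw [Finsupp.mem_support_iff]
      intro h0
      exact hc (if_pos h0))
  have hy : ∀ c, y c = if x' c = 0 then 0 else r ⟨x' c, hcoef c⟩ := fun c => rfl
  refine ⟨y, ?_, ?_⟩
  · rw [← hx']
    refine Finsupp.ext fun c => ?_
    show p • y c = x' c
    rw [hy]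
    split_ifs with h0
    · rw [h0, smul_zero]
    · exact hr _
  · obtain ⟨W, hW, hfix⟩ := exists_common_level L A
      (x'.support.image (fun c => r ⟨x' c, hcoef c⟩)) (by
        intro e he
        obtain ⟨c, -, rfl⟩ := Finset.mem_image.1 he
        exact hr' _)
    obtain ⟨W', hW', hleW⟩ := L.directed U' hU' W hW
    refine ⟨W', hW', fun s hs => ?_⟩
    show indρ (MonoidHom.id G) V A s y = y
    rw [indρ_of_trivial A V s (htriv s (hleW hs).1)]
    refine Finsupp.ext fun c => ?_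
    rw [Finsupp.mapRange_apply, hy]
    split_ifs with h0
    · exact map_zero _
    · exact hfix _ (Finset.mem_image_of_mem _ (Finsupp.mem_support_iff.2 h0)) s (hleW hs).2

end Ind

/-! ### 3. The Kummer sequence `0 → μ_p → 𝔼 → 𝔼` -/

section Kummer

variable (p : ℕ) [Fact p.Prime] (S : Finset Nat.Primes) (V : Subgroup GQ)

lemma muToE_equivariant (g : GQ) (m : muP p) :
    muToE p S ((muP p).ρ g m) = (sUnits S).ρ g (muToE p S m) := by
  apply Subtype.ext
  show Additive.ofMul ((MuP.root (p := p) (muPRep p g m) : rootsOfUnity p Qbar) : Qbarˣ)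
    = Additive.ofMul (g • ((MuP.root (p := p) m : rootsOfUnity p Qbar) : Qbarˣ))
  congr 1
  apply Units.ext
  exact muPRep_apply p g m

lemma muToE_tors (x : sUnits S) (hx : p • x = 0) : ∃ m : muP p, muToE p S m = x := by
  obtain ⟨u, hu⟩ := x
  have h : (Additive.toMul u) ^ p = 1 := by
    have h1 := congrArg Subtype.val hx
    exact h1
  exact ⟨MuP.of p ⟨Additive.toMul u, (mem_rootsOfUnity p _).2 h⟩, Subtype.ext rfl⟩

lemma indMuToE_injective : Function.Injective (indMuToE p S V) :=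
  Finsupp.mapRange_injective (muToE p S) (map_zero _) (muToE_injective p S)

lemma indMuToE_equivariant (g : GQ) (m : indG V (muP p)) :
    indMuToE p S V ((indG V (muP p)).ρ g m) = (indG V (sUnits S)).ρ g (indMuToE p S V m) := by
  obtain ⟨m', hm'⟩ : ∃ m' : (GQ ⧸ V) →₀ muP p, m' = m := ⟨m, rfl⟩
  rw [← hm']
  show Finsupp.mapRange (muToE p S) (map_zero _)
      (Finsupp.mapDomain (fun c : GQ ⧸ V => g • c)
        (Finsupp.mapRange ((muP p).ρ g) (map_zero _) m'))
    = Finsupp.mapDomain (fun c : GQ ⧸ V => g • c)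
        (Finsupp.mapRange ((sUnits S).ρ g) (map_zero _)
          (Finsupp.mapRange (muToE p S) (map_zero _) m'))
  rw [← Finsupp.mapDomain_mapRange _ _ _ _ (map_add (muToE p S))]
  congr 1
  refine Finsupp.ext fun c => ?_
  rw [Finsupp.mapRange_apply, Finsupp.mapRange_apply, Finsupp.mapRange_apply,
    Finsupp.mapRange_apply]
  exact muToE_equivariant p S g (m' c)

lemma indMuToE_tors (e : indG V (sUnits S)) (he : p • e = 0) :
    ∃ m, indMuToE p S V m = e := by
  classical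
  obtain ⟨e', he'⟩ : ∃ e' : (GQ ⧸ V) →₀ sUnits S, e' = e := ⟨e, rfl⟩
  have h : ∀ c, ∃ m : muP p, muToE p S m = e' c := fun c => muToE_tors p S _ (by
    have h1 : p • e' = 0 := by rw [he']; exact he
    have h2 := DFunLike.congr_fun h1 c
    simpa using h2)
  choose f hf using h
  refine ⟨Finsupp.onFinset e'.support f ?_, ?_⟩
  · intro c hc
    rw [Finsupp.mem_support_iff]
    intro h0
    apply hc
    apply muToE_injective p S
    rw [hf, h0, map_zero]
  · rw [← he']
    refine Finsupp.ext fun c => ?_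
    show muToE p S (f c) = e' c
    exact hf c

lemma ind_nsmul_p (m : indG V (muP p)) : p • m = 0 := by
  obtain ⟨m', hm'⟩ : ∃ m' : (GQ ⧸ V) →₀ MuP p, m' = m := ⟨m, rfl⟩
  rw [← hm']
  refine Finsupp.ext fun c => ?_
  show p • m' c = 0
  exact MuP.nsmul_p _

end Kummer

/-! ### 4. K-T3 -/

section Final

variable (p : ℕ) [Fact p.Prime] (S : Finset Nat.Primes)

/-- **Leaf K-T3.** `H³_S(Ind_V μ_p) = 0` from KUM, GO1 and GO2. -/
theorem h3IndMu_of (hK : KummerSpec p S) (h2 : H2DivESpec p S) (h3 : H3TorsESpec p S) :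
    H3IndMuSpec p S := by
  intro hp2 hpS V hV
  have hN : (globalLevels S).NormalCofinal := globalLevels_normal_cofinal724 S
  have hF : (globalLevels S).FiniteIndex := H424.globalFiniteIndex S
  exact h3Vanish_of hN hF p (indMuToE p S V) (indMuToE_injective p S V)
    (indMuToE_equivariant p S V) (ind_nsmul_p p V) (indMuToE_tors p S V)
    (kummer_ind (sUnits S) hN p (fun x hx => hK hpS x hx) hV)
    (h2 hp2 hpS V hV) (h3 hp2 hpS V hV)

end Final

end Fermat.Agent.S55.K.H397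

end
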