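import Fermat.Agent.S55.K.H724.Mu

/-!
# S55 / layer K, leaf K-KUM : `KummerSpec`   (helper724)

An `S`-unit of `ℚ̄` fixed by an `S`-level has a `p`-th root which is an `S`-unit fixed by an
`S`-level (`p ∈ S`): if `y ^ p = x` and `σ` is in the inertia group of a place `A` over `q ∉ S`,
then `σ y / y` is a `p`-th root of unity congruent to `1` mod `𝔪_A`, hence `= 1` (`q ≠ p`).
-/

set_option autoImplicit false

noncomputable section

namespace Fermat.Agent.S55.K.H724

open groupCohomology Fermat.Agent.S55.PT Fermat.Agent.S55.K Fermat.Agent.S55.Bridge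

variable (p : ℕ) [Fact p.Prime] (S : Finset Nat.Primes)

/-- a valuation subring lying over a prime `q ∉ S` is outside `S` -/
lemma outsideS_of_liesOver {q : Nat.Primes} (hq : q ∉ S) {A : ValuationSubring Qbar}
    (hA : A.LiesOverPrime (q : ℕ)) : OutsideS S A := by
  intro q' hq' hA'
  have hne : (q : ℕ) ≠ (q' : ℕ) := by
    intro h
    apply hq
    have : q = q' := Subtype.ext h
    rw [this]
    exact hq'
  have h1 := val_prime_eq_one (A := A) hA q.2 q'.2 hne
  have h2 : A.valuation ((q' : ℕ) : Qbar) < 1 := (A.mem_nonunits_iff).mp hA'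
  rw [h1] at h2
  exact lt_irrefl _ h2

/-- the valuation of an `S`-unit at a place outside `S` is `1` -/
lemma val_eq_one_of_isSUnit {x : Qbarˣ} (hx : IsSUnit S x) {A : ValuationSubring Qbar}
    (hA : OutsideS S A) : A.valuation (x : Qbar) = 1 := by
  obtain ⟨h1, h2⟩ := hx A hA
  have h3 : A.valuation (x : Qbar) ≤ 1 := (A.valuation_le_one_iff _).2 h1
  have h4 : A.valuation ((x⁻¹ : Qbarˣ) : Qbar) ≤ 1 := (A.valuation_le_one_iff _).2 h2
  rw [Units.val_inv_eq_inv_val, map_inv₀] at h4
  have hx0 : A.valuation (x : Qbar) ≠ 0 := (A.valuation).ne_zero_iff.2 x.ne_zero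
  refine le_antisymm h3 ?_
  have := (inv_le_one₀ (zero_lt_iff.2 hx0)).1 h4
  exact this

/-- an element with valuation `1` at all places outside `S` is an `S`-unit -/
lemma isSUnit_of_val_eq_one {x : Qbarˣ}
    (hx : ∀ A : ValuationSubring Qbar, OutsideS S A → A.valuation (x : Qbar) = 1) :
    IsSUnit S x := by
  intro A hA
  have h := hx A hA
  refine ⟨(A.valuation_le_one_iff _).1 h.le, (A.valuation_le_one_iff _).1 ?_⟩
  rw [Units.val_inv_eq_inv_val, map_inv₀, h, inv_one]

/-- **KUM, key step.** Inertia at `q ∉ S` fixes `p`-th roots of elements fixed by inertia which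
are units at the place (`p ∈ S`, so `q ≠ p`). -/
lemma inertia_fixes_root {q : ℕ} (hq : q.Prime) (hqp : q ≠ p)
    (A : ValuationSubring Qbar) (hA : A.LiesOverPrime q) (σ : GQ)
    (hσ : σ ∈ A.inertiaSubgroupIn ℚ) (y : Qbar) (hy : A.valuation y = 1)
    (hσx : σ (y ^ p) = y ^ p) : σ y = y := by
  have hp : p.Prime := Fact.out
  by_contra hne
  have hy0 : y ≠ 0 := by
    rintro rfl
    rw [map_zero] at hy
    exact zero_ne_one hy
  have hpv := val_prime_eq_one (A := A) hA hq hp hqp
  have ha : (σ y / y) ^ p = 1 := by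
    rw [div_pow, ← map_pow, hσx, div_self (pow_ne_zero _ hy0)]
  have ha1 : σ y / y ≠ 1 := fun h => hne ((div_eq_one_iff_eq hy0).1 h)
  have h1 := val_sub_roots_eq_one (A := A) hp.ne_zero hpv ha (one_pow p) ha1
  have h2 := inertia_val_sub_lt_one A hσ y hy.le
  have h3 : σ y - y = y * (σ y / y - 1) := by
    field_simp
  rw [h3, map_mul, hy, one_mul, h1] at h2
  exact lt_irrefl _ h2

/-- **K-KUM.** -/
theorem kummer : KummerSpec p S := by
  intro hpS x hx
  have hp : p.Prime := Fact.out
  obtain ⟨U, ⟨F, hF, rfl⟩, hfix⟩ := hx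
  -- the underlying unit
  let x₀ : Qbarˣ := Additive.toMul (sUnitsIncl S x)
  have hx₀ : IsSUnit S x₀ := x.2
  -- a `p`-th root
  obtain ⟨y₀, hy₀⟩ := IsAlgClosed.exists_pow_nat_eq (x₀ : Qbar) hp.pos
  have hy₀0 : y₀ ≠ 0 := by
    rintro rfl
    rw [zero_pow hp.ne_zero] at hy₀
    exact x₀.ne_zero hy₀.symm
  let yu : Qbarˣ := Units.mk0 y₀ hy₀0
  have hyu : yu ^ p = x₀ := by
    apply Units.ext
    rw [Units.val_pow_eq_pow_val]
    exact hy₀
  have hval : ∀ A : ValuationSubring Qbar, OutsideS S A → A.valuation (yu : Qbar) = 1 := by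
    intro A hA
    have h1 := val_eq_one_of_isSUnit S hx₀ hA
    rw [← hyu, Units.val_pow_eq_pow_val, map_pow] at h1
    exact (pow_eq_one_iff.1 h1).resolve_right hp.ne_zero
  have hyS : IsSUnit S yu := isSUnit_of_val_eq_one S hval
  refine ⟨⟨Additive.ofMul yu, hyS⟩, ?_, ?_⟩
  · apply sUnitsIncl_injective
    show Additive.ofMul (yu ^ p) = Additive.ofMul x₀
    rw [hyu]
  · -- the level
    have hfix' : ∀ s ∈ F.fixingSubgroup, s (x₀ : Qbar) = x₀ := by
      intro s hs
      have h1 := hfix s hs
      have h2 := sUnits_ρ_coe S s x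
      rw [h1] at h2
      exact h2.symm
    have hYfin : FiniteDimensional ℚ (IntermediateField.adjoin ℚ {y₀}) :=
      IntermediateField.adjoin.finiteDimensional
        ((isAlgebraic_Qbar.isAlgebraic y₀).isIntegral)
    have hFfin : FiniteDimensional ℚ F := hF.1
    have hsupfin : FiniteDimensional ℚ ↥(F ⊔ IntermediateField.adjoin ℚ {y₀}) :=
      IntermediateField.finiteDimensional_sup F _
    obtain ⟨L, hL, hLfix, -⟩ := exists_level_of_subgroup S
      (F.fixingSubgroup ⊓ MulAction.stabilizer GQ y₀) (F ⊔ IntermediateField.adjoin ℚ {y₀})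
      hsupfin
      (fun s hs => by
        rw [IntermediateField.fixingSubgroup_sup] at hs
        refine ⟨hs.1, ?_⟩
        show s ∈ MulAction.stabilizer GQ y₀
        rw [MulAction.mem_stabilizer_iff]
        exact (IntermediateField.mem_fixingSubgroup_iff _ s).1 hs.2 y₀
          (IntermediateField.mem_adjoin_simple_self ℚ y₀))
      (fun q hq A hA s hs => by
        have hsF : s ∈ F.fixingSubgroup := hF.2 q hq A hA hs
        refine ⟨hsF, ?_⟩
        show s ∈ MulAction.stabilizer GQ y₀
        rw [MulAction.mem_stabilizer_iff]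
        have hqp : (q : ℕ) ≠ p := by
          intro h
          apply hq
          have : q = ExtCitation.pPrime p := Subtype.ext h
          rw [this]
          exact hpS
        refine inertia_fixes_root p q.2 hqp A hA s hs y₀
          (hval A (outsideS_of_liesOver S hq hA)) ?_
        rw [hy₀]
        exact hfix' s hsF)
    refine ⟨L.fixingSubgroup, ⟨L, hL, rfl⟩, fun s hs => ?_⟩
    rw [hLfix] at hs
    have hs2 : s y₀ = y₀ := MulAction.mem_stabilizer_iff.1 hs.2
    apply sUnitsIncl_injective
    apply Additive.toMul.injective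
    apply Units.ext
    exact hs2

end Fermat.Agent.S55.K.H724

end
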