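import Fermat.Agent.S55.K.H724.Mu

/-!
# S55 / layer K, leaf K-T4 : `cap_of`   (helper724)

`KummerSpec p S → HasseESpec p S → NormCapSpec p S → CapSpec p S`
(cochain level; blueprint `coord/S55-K.md` §3).
-/

set_option autoImplicit false

noncomputable section

namespace Fermat.Agent.S55.K.H724

open groupCohomology Fermat.Agent.S55.PT Fermat.Agent.S55.K Fermat.Agent.S55.Bridge

variable (p : ℕ) [Fact p.Prime] (S : Finset Nat.Primes)

/-- `𝔼 → ℚ̄_qˣ` is equivariant along `G_{ℚ_q} → G_ℚ` -/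
lemma locE_equivariant (q : Nat.Primes) (h : Gl q) (a : sUnits S) :
    locE q S ((sUnits S).ρ (rl q h) a) = (Tow.unitsQpbar q).ρ h (locE q S a) := by
  apply Additive.toMul.injective
  apply Units.ext
  have : Fact (q : ℕ).Prime := ⟨q.2⟩
  exact padicEmbedding_localGaloisToGlobal (q : ℕ) h _

/-- `Ind_U μ_p → Ind_U 𝔼 → Ind_U ℚ̄_qˣ` as an additive map -/
def locMu (q : Nat.Primes) (U : Subgroup GQ) :
    Rep.res (rl q) (indG U (muP p)) →+ ind (rl q) U (Tow.unitsQpbar q) :=
  (indLocE q S U).toAddMonoidHom.comp (indMuToE p S U)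

lemma locMu_equivariant (q : Nat.Primes) (U : Subgroup GQ) :
    IsAddEquivariant (locMu p S q U) := by
  intro h a
  have h1 : indMuToE p S U ((indG U (muP p)).ρ (rl q h) a) =
      (indG U (sUnits S)).ρ (rl q h) (indMuToE p S U a) := indMuToE_equivariant p S U (rl q h) a
  show indLocE q S U (indMuToE p S U ((indG U (muP p)).ρ (rl q h) a)) = _
  rw [h1]
  exact mapRange_equivariant (rl q) U (locE q S).toAddMonoidHom (locE_equivariant S q) h _

/-- `indProj` as an additive map -/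
def projA {U V : Subgroup GQ} (hUV : U ≤ V) {k : Type} [CommRing k] (A : Rep.{0, 0, 0} k GQ) :
    indG U A →+ indG V A :=
  (indProj (MonoidHom.id GQ) hUV A).toAddMonoidHom

lemma projA_equivariant {U V : Subgroup GQ} (hUV : U ≤ V) {k : Type} [CommRing k]
    (A : Rep.{0, 0, 0} k GQ) : IsAddEquivariant (projA hUV A) := by
  intro g a
  exact projF_equivariant (MonoidHom.id GQ) hUV A g a

lemma projA_indMuToE {U V : Subgroup GQ} (hUV : U ≤ V) (m : indG U (muP p)) :
    projA hUV (sUnits S) (indMuToE p S U m) = indMuToE p S V (projA hUV (muP p) m) := by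
  exact Finsupp.mapDomain_mapRange (quotLE hUV) (toF (MonoidHom.id GQ) U (muP p) m)
    (muToE p S) (map_zero _) (fun a b => map_add _ a b)

/-- **K-T4.** -/
theorem cap_of (hK : KummerSpec p S) (h3 : HasseESpec p S) (h6 : NormCapSpec p S) :
    CapSpec p S := by
  intro hp2 hpS V hV
  have hN := globalLevels_normalCofinal S
  obtain ⟨U, hU, hUV, hUn, hcap⟩ := h6 hp2 hpS V hV
  refine ⟨U, hU, hUV, hUn, fun x hx hloc => ?_⟩
  have hιU := indMuToE_equivariant p S U
  have hιV := indMuToE_equivariant p S V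
  have hιVinj := indMuToE_injective p S V
  -- the cocycle in `Ind_U 𝔼`
  have hx' : (indMuToE p S U ∘ x : GQ × GQ → indG U (sUnits S)) ∈
      (globalLevels S).Z2 (indG U (sUnits S)) := by
    refine ⟨?_, LevelSys.IsLC₂.comp hx.2 _⟩
    show (d₂₃ (indG U (sUnits S))).hom (indMuToE p S U ∘ x) = 0
    have hx0 : (d₂₃ (indG U (muP p))).hom x = 0 := hx.1
    rw [← comp_d23 hιU, hx0]
    funext t
    exact map_zero _
  have hpx' : p • (indMuToE p S U ∘ x : GQ × GQ → indG U (sUnits S)) = 0 := by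
    funext t
    show p • indMuToE p S U (x t) = 0
    rw [← map_nsmul, ZModModule.char_nsmul_eq_zero p (x t), map_zero]
  -- GO3
  have hlocE : ∀ q ∈ S, (indLocE q S U ∘ (indMuToE p S U ∘ x) ∘ Prod.map (rl q) (rl q) :
      Gl q × Gl q → ind (rl q) U (Tow.unitsQpbar q)) ∈
      (localLevels q).B2 (ind (rl q) U (Tow.unitsQpbar q)) := by
    intro q hq
    obtain ⟨c, hc, hdc⟩ := hloc q hq
    refine ⟨locMu p S q U ∘ c, LevelSys.IsLC₁.comp hc _, ?_⟩
    rw [← comp_d12 (locMu_equivariant p S q U), hdc]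
    rfl
  obtain ⟨y, hy, hdy⟩ := h3 hp2 hpS U hU _ hx' (by rw [hpx']; exact Submodule.zero_mem _) hlocE
  -- `z = p • y` is a cocycle
  have hz : p • y ∈ (globalLevels S).Z1 (indG U (sUnits S)) := by
    refine ⟨?_, nsmul_mem hy p⟩
    show (d₁₂ (indG U (sUnits S))).hom (p • y) = 0
    rw [map_nsmul, hdy, hpx']
  -- GO6
  obtain ⟨w, hw, e, he⟩ := hcap (p • y) hz
  -- K-I3: `e` is smooth
  have hπy : (projA hUV (sUnits S) ∘ y : GQ → indG V (sUnits S)) ∈
      (globalLevels S).C1 (indG V (sUnits S)) := LevelSys.IsLC₁.comp hy _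
  have hde_lc : (globalLevels S).IsLC₁ ((d₀₁ (indG V (sUnits S))).hom e) := by
    rw [he]
    exact ((globalLevels S).C1 (indG V (sUnits S))).sub_mem
      (LevelSys.IsLC₁.comp (nsmul_mem hy p) _) (nsmul_mem hw.2 p)
  have hesm := smooth_of_d01_lc e hde_lc
  -- Kummer
  have hdiv : IsPDiv (globalLevels S) (indG V (sUnits S)) p :=
    isPDiv_ind hN (isPDiv_of_kummer p S hK hpS) V hV
  obtain ⟨e', hpe', he'sm⟩ := hdiv e hesm
  have hde' : (d₀₁ (indG V (sUnits S))).hom e' ∈ (globalLevels S).C1 (indG V (sUnits S)) :=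
    d01_lc_of_smooth e' he'sm
  -- the corrected cochain
  have hy' : projA hUV (sUnits S) ∘ y - w - (d₀₁ (indG V (sUnits S))).hom e' ∈
      (globalLevels S).C1 (indG V (sUnits S)) :=
    Submodule.sub_mem _ (Submodule.sub_mem _ hπy hw.2) hde'
  have hπp : (projA hUV (sUnits S) ∘ (p • y) : GQ → indG V (sUnits S)) =
      p • (projA hUV (sUnits S) ∘ y : GQ → indG V (sUnits S)) := by
    funext g
    exact map_nsmul (projA hUV (sUnits S)) p (y g)
  have hpy' : p • (projA hUV (sUnits S) ∘ y - w - (d₀₁ (indG V (sUnits S))).hom e') = 0 := by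
    rw [smul_sub, smul_sub, ← map_nsmul, hpe', he, ← hπp]
    exact sub_self _
  obtain ⟨F, hF⟩ := exists_tors p S V
  have hιy'' : (indMuToE p S V ∘ (F ∘ (projA hUV (sUnits S) ∘ y - w -
      (d₀₁ (indG V (sUnits S))).hom e')) : GQ → indG V (sUnits S)) =
      projA hUV (sUnits S) ∘ y - w - (d₀₁ (indG V (sUnits S))).hom e' :=
    funext fun g => hF _ (congrFun hpy' g)
  refine ⟨F ∘ (projA hUV (sUnits S) ∘ y - w - (d₀₁ (indG V (sUnits S))).hom e'),
    LevelSys.IsLC₁.comp hy' F, ?_⟩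
  have hw0 : (d₁₂ (indG V (sUnits S))).hom w = 0 := hw.1
  have key : (indMuToE p S V ∘ (d₁₂ (indG V (muP p))).hom
      (F ∘ (projA hUV (sUnits S) ∘ y - w - (d₀₁ (indG V (sUnits S))).hom e')) :
      GQ × GQ → indG V (sUnits S)) =
      indMuToE p S V ∘ (indProj (MonoidHom.id GQ) hUV (muP p) ∘ x) := by
    rw [comp_d12 hιV, hιy'', map_sub, map_sub, hw0, d₀₁_comp_d₁₂_apply, sub_zero, sub_zero,
      ← comp_d12 (projA_equivariant hUV (sUnits S)), hdy]
    funext t
    exact projA_indMuToE p S hUV (x t)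
  exact funext fun t => hιVinj (congrFun key t)

end Fermat.Agent.S55.K.H724

end
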