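import Fermat.Agent.S55.K.Spec
import Fermat.Agent.S55.H593.Dev.Main
import Fermat.Agent.S55.PT.LevelsH724
import Fermat.Agent.S55.PT.CycloLevelH723
import Fermat.Agent.S55.Bridge.Level

/-!
# S55 / layer K, leaf K-T2: dévissage `H3IndMuSpec ⇒ H3FinSpec`   (helper593)

`h3Fin_of : H3IndMuSpec p S → H3FinSpec p S`:
if `H³_S(Ind_V μ_p) = 0` for every level `V` then `H³_S(R) = 0` for every finite-dimensional
`𝔽_p[G_ℚ]`-module `R` fixed by an `S`-level.

This is the instance `G = G_ℚ`, `𝓛 = globalLevels S`, `μ = muP p` of the abstract dévissage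
`H593.Dev.H3V_of_ind_triv` (`H593/Dev/Main.lean`, Mathlib only).  The adapter consists of:
`K.H3Vanish ↔ Dev.H3V` (unfolding), `K.indG = Dev.dInd` (definitionally), open subgroups of
`G_ℚ` containing an `S`-level are `S`-levels (`Bridge.exists_level_of_subgroup`), and `muP p` is
fixed by the level `ℚ(μ_p)` (`p ∈ S`).
-/

set_option autoImplicit false
set_option linter.style.haveILetI false

noncomputable section

namespace Fermat.Agent.S55.K.H593

open groupCohomology Fermat.Agent.S55.PT Fermat.Agent.S55.Bridge Fermat.Agent.S55.K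
open Fermat.Agent.S55.H593

variable {G : Type} [Group G]

/-- `K.H3Vanish` is `Dev.H3V` (same cochain-level statement). -/
theorem h3Vanish_iff_H3V {k : Type} [CommRing k] (L : LevelSys G) (A : Rep.{0, 0, 0} k G) :
    H3Vanish L A ↔ Dev.H3V L.levels A := by
  constructor
  · intro h z hz hcoc
    have hd : d34 A z = 0 := by
      funext x
      obtain ⟨g, h', i, j⟩ := x
      exact hcoc g h' i j
    obtain ⟨b, hb, hdb⟩ := h z hz hd
    exact ⟨b, hb, hdb⟩
  · intro h f hf hd
    have hcoc : Dev.IsCoc3 A f := fun g h' i j => congrFun hd (g, h', i, j)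
    obtain ⟨b, hb, hdb⟩ := h f hf hcoc
    exact ⟨b, hb, hdb⟩

/-- `K.indG` is `Dev.dInd`. -/
theorem indG_eq_dInd {k : Type} [CommRing k] (V : Subgroup G) (A : Rep.{0, 0, 0} k G) :
    indG V A = Dev.dInd V A := rfl

variable (p : ℕ) [Fact p.Prime] (S : Finset Nat.Primes)

/-- A subgroup of `G_ℚ` containing an `S`-level is an `S`-level. -/
theorem mem_levels_of_le {U H : Subgroup GQ} (hU : U ∈ (globalLevels S).levels) (hUH : U ≤ H) :
    H ∈ (globalLevels S).levels := by
  obtain ⟨F, hF, rfl⟩ := hU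
  obtain ⟨L, hL, hfix, -⟩ := exists_level_of_subgroup S H F hF.1 hUH
    (fun q hq A hA => (hF.2 q hq A hA).trans hUH)
  exact ⟨L, hL, hfix.symm⟩

/-- `μ_p` is fixed by an `S`-level if `p ∈ S`. -/
theorem muP_uSmooth (hpS : ExtCitation.pPrime p ∈ S) :
    Dev.USmooth (globalLevels S).levels (muP p) := by
  obtain ⟨V, hV, hfix⟩ := PT.H723.cycloLevelSpec p S hpS
  have key : ∀ s ∈ V, ∀ a : MuP p, muPRep p s a = a := fun s hs a => by
    rw [muPRep_apply_smul, hfix s hs, Units.val_one, one_smul]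
  exact ⟨V, hV, fun s hs a => key s hs a⟩

/-- **K-T2.**  Dévissage: `H³_S(Ind_V μ_p) = 0` for all levels `V` ⇒ `H³_S(R) = 0` for all
finite `R`. -/
theorem h3Fin_of (h : H3IndMuSpec p S) : H3FinSpec p S := by
  intro hp2 hpS R hRfd hRsm
  haveI := hRfd
  rw [h3Vanish_iff_H3V]
  refine Dev.H3V_of_ind (𝓛 := (globalLevels S).levels) (globalLevels S).directed
    (PT.H724.globalNormalCofinal S) (PT.H724.globalFiniteIndex S) (muP p) (MuP.natCard p)
    (muP_uSmooth p S hpS) ?_ R hRsm
  rintro H ⟨U, hU, hUH⟩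
  rw [← indG_eq_dInd, ← h3Vanish_iff_H3V]
  exact h hp2 hpS H (mem_levels_of_le S hU hUH)

end Fermat.Agent.S55.K.H593

end
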