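/-
S55 moonshot — LAYER K, leaf K-FIN / GO7 (helper331).

`finE_of : KummerSpec p S → FinESpec p S`

Cochain-level proof.  `M = Ind_V μ_p ⊂ E = Ind_V 𝔼`, `ι : M → E` the Kummer inclusion
(`im ι = E[p]`), and the smooth part of `E` is `p`-divisible (KUM).  The set `Z¹_S(M)` of
level-constant cocycles is FINITE (`PT.H593.finite_Z1`, unconditional; needs only that `M` is a
finite module fixed by an `S`-level, i.e. `p ∈ S`).

* `H¹`-part: if `z ∈ Z¹_S(E)` and `p·z = d e`, then `e` is fixed by a level (as `z` vanishes on a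
  level), so `e = p·e'` with `e'` smooth, and `z - d e'` is a level-constant cocycle killed by
  `p`, hence `= ι ∘ c` with `c ∈ Z¹_S(M)`.  So `T = {ι ∘ c}` works.
* `H⁰`-part: an invariant `e` is `p·y` with `y` smooth; `d y` is killed by `p`, hence
  `d y = ι ∘ c` with `c ∈ Z¹_S(M)`.  Choose for every `c` arising in this way one such `y_c`;
  then `y - y_c` is invariant and `e - p·(y - y_c) = p·y_c`.  So `T = {p·y_c}` works.
-/
import Fermat.Agent.S55.K.T3H397
import Fermat.Agent.S55.K.T2H696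
import Fermat.Agent.S55.PT.FinGlobH593

set_option autoImplicit false
set_option linter.style.haveILetI false

noncomputable section

namespace Fermat.Agent.S55.K.H331

open groupCohomology Fermat.Agent.S55.PT Fermat.Agent.S55.Bridge Fermat.Agent.S55.K
open Fermat.Agent.S55.K.H397

/-! ### 1. Abstract part -/

section Abstract

variable {G : Type} [Group G] {L : LevelSys G}
variable {k k' : Type} [CommRing k] [CommRing k']
variable {M : Rep.{0, 0, 0} k G} {E : Rep.{0, 0, 0} k' G}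

/-- The coboundary of an element fixed by a level is level-constant. -/
lemma d01_isLC (e : E) (he : Sm L E e) : L.IsLC₁ ((d₀₁ E).hom e) := by
  obtain ⟨W, hW, h⟩ := he
  refine ⟨W, hW, fun g s hs => ?_⟩
  simp only [d₀₁_hom_apply]
  rw [map_mul, Module.End.mul_apply, h s hs]

/-- Coboundaries are cocycles. -/
lemma d01_mem_cocycles (e : E) : (d₀₁ E).hom e ∈ cocycles₁ E := by
  have h := LinearMap.congr_fun (congrArg ModuleCat.Hom.hom (d₀₁_comp_d₁₂ E)) e
  exact h

/-- A level-constant cocycle of `E` killed by `p` comes from a level-constant cocycle of `M`. -/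
lemma exists_Z1_of_tors (p : ℕ) (ι : M →+ E) (hinj : Function.Injective ι)
    (heq : ∀ g m, ι (M.ρ g m) = E.ρ g (ι m))
    (htors : ∀ e : E, p • e = 0 → ∃ m, ι m = e)
    (z : G → E) (hz : z ∈ cocycles₁ E) (hlc : L.IsLC₁ z) (hp : p • z = 0) :
    ∃ c : ↥(L.Z1 M), ∀ g, ι ((c : G → M) g) = z g := by
  have hval : ∀ g, ∃ m, ι m = z g := fun g => htors _ (by simpa using congrFun hp g)
  choose c hc using hval
  refine ⟨⟨c, ?_, ?_⟩, hc⟩
  · refine (mem_cocycles₁_iff c).2 fun g h => ?_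
    apply hinj
    rw [map_add, heq, hc, hc, hc]
    exact (mem_cocycles₁_iff z).1 hz g h
  · obtain ⟨U, hU, h⟩ := hlc
    exact ⟨U, hU, fun g s hs => hinj (by rw [hc, hc]; exact h g s hs)⟩

/-- **GO7, `H¹`-part (abstract).**  `H¹_L(E)[p]` is the image of the finite set `Z¹_L(M)`. -/
theorem fin_H1_tors (p : ℕ) (ι : M →+ E) (hinj : Function.Injective ι)
    (heq : ∀ g m, ι (M.ρ g m) = E.ρ g (ι m))
    (htors : ∀ e : E, p • e = 0 → ∃ m, ι m = e)
    (hkum : ∀ x : E, Sm L E x → ∃ y : E, p • y = x ∧ Sm L E y)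
    [Finite ↥(L.Z1 M)] :
    ∃ T : Finset (G → E), ∀ z ∈ L.Z1 E, p • z ∈ LevelSys.B1 E →
      ∃ t ∈ T, z - t ∈ LevelSys.B1 E := by
  classical
  let f : ↥(L.Z1 M) → (G → E) := fun c g => ι ((c : G → M) g)
  refine ⟨(Set.finite_range f).toFinset, fun z hz hpz => ?_⟩
  obtain ⟨e, he⟩ := hpz
  obtain ⟨U, hU, hzU⟩ := hz.2
  have hz1 : z 1 = 0 := by
    have h := (mem_cocycles₁_iff z).1 hz.1 1 1
    simpa using h
  have hsm : Sm L E e := ⟨U, hU, fun s hs => by
    have h1 := congrFun he s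
    simp only [d₀₁_hom_apply, Pi.smul_apply] at h1
    have h2 : z s = 0 := by
      have h3 := hzU 1 s hs
      rwa [one_mul, hz1] at h3
    rw [h2, smul_zero, sub_eq_zero] at h1
    exact h1⟩
  obtain ⟨e', hpe', hsm'⟩ := hkum e hsm
  have hlc' : L.IsLC₁ (z - (d₀₁ E).hom e') := (L.C1 E).sub_mem hz.2 (d01_isLC e' hsm')
  have hcoc' : z - (d₀₁ E).hom e' ∈ cocycles₁ E :=
    (cocycles₁ E).sub_mem hz.1 (d01_mem_cocycles e')
  have hp' : p • (z - (d₀₁ E).hom e') = 0 := by
    rw [smul_sub, ← map_nsmul, hpe', he, sub_self]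
  obtain ⟨c, hc⟩ := exists_Z1_of_tors p ι hinj heq htors _ hcoc' hlc' hp'
  have hfc : f c = z - (d₀₁ E).hom e' := funext hc
  refine ⟨f c, (Set.Finite.mem_toFinset _).2 ⟨c, rfl⟩, ?_⟩
  rw [hfc, sub_sub_cancel]
  exact ⟨e', rfl⟩

/-- **GO7, `H⁰`-part (abstract).**  `E^G / p` injects into the finite set `Z¹_L(M)` modulo
coboundaries: finitely many invariants represent all invariants modulo `p`-th multiples of
invariants. -/
theorem fin_H0_mod (p : ℕ) (ι : M →+ E) (hinj : Function.Injective ι)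
    (heq : ∀ g m, ι (M.ρ g m) = E.ρ g (ι m))
    (htors : ∀ e : E, p • e = 0 → ∃ m, ι m = e)
    (hkum : ∀ x : E, Sm L E x → ∃ y : E, p • y = x ∧ Sm L E y)
    [Finite ↥(L.Z1 M)] :
    ∃ T : Finset E, ∀ e : E, (∀ g : G, E.ρ g e = e) →
      ∃ e' : E, (∀ g : G, E.ρ g e' = e') ∧ e - p • e' ∈ T := by
  classical
  let P : ↥(L.Z1 M) → E → Prop := fun c y => ∀ g, ι ((c : G → M) g) = E.ρ g y - y
  let f : ↥(L.Z1 M) → E := fun c => if h : ∃ y, P c y then p • Classical.choose h else 0
  refine ⟨(Set.finite_range f).toFinset, fun e he => ?_⟩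
  have hsm : Sm L E e := by
    obtain ⟨U, hU⟩ := L.nonempty
    exact ⟨U, hU, fun s _ => he s⟩
  obtain ⟨y, hpy, hsmy⟩ := hkum e hsm
  have hp0 : p • (d₀₁ E).hom y = 0 := by
    rw [← map_nsmul, hpy]
    funext g
    simp only [d₀₁_hom_apply, he g, sub_self]
    rfl
  obtain ⟨c, hc⟩ := exists_Z1_of_tors p ι hinj heq htors _ (d01_mem_cocycles y)
    (d01_isLC y hsmy) hp0
  have hP : ∃ y, P c y := ⟨y, fun g => by rw [hc, d₀₁_hom_apply]⟩
  have hy0 : P c (Classical.choose hP) := Classical.choose_spec hP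
  refine ⟨y - Classical.choose hP, fun g => ?_, ?_⟩
  · have h1 : E.ρ g y - y = E.ρ g (Classical.choose hP) - Classical.choose hP := by
      rw [← hy0 g, hc, d₀₁_hom_apply]
    rw [map_sub]
    rw [sub_eq_sub_iff_add_eq_add] at h1 ⊢
    rw [h1, add_comm]
  · rw [Set.Finite.mem_toFinset]
    refine ⟨c, ?_⟩
    show f c = e - p • (y - Classical.choose hP)
    have hf : f c = p • Classical.choose hP := dif_pos hP
    rw [hf, smul_sub, hpy, sub_sub_cancel]

end Abstract

/-! ### 2. `Ind_V μ_p` is a finite module fixed by a level -/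

section Final

variable (p : ℕ) [Fact p.Prime] (S : Finset Nat.Primes)

/-- `Ind_V μ_p` is uniformly smooth (`p ∈ S`, `V` a level). -/
lemma indG_muP_isUSmooth (hpS : ExtCitation.pPrime p ∈ S) {V : Subgroup PT.GQ}
    (hV : V ∈ (globalLevels S).levels) : (globalLevels S).IsUSmooth (indG V (muP p)) := by
  obtain ⟨U₀, hU₀, h₀⟩ := K.H696.isUSmooth_muP p S hpS
  obtain ⟨U₁, hU₁, hle₁⟩ := (globalLevels S).directed U₀ hU₀ V hV
  obtain ⟨U, hU, hle, hn⟩ := globalLevels_normal_cofinal724 S U₁ hU₁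
  refine ⟨U, hU, fun s hs a => ?_⟩
  show indρ (MonoidHom.id PT.GQ) V (muP p) s a = a
  rw [indρ_of_trivial (muP p) V s
    (fun c => smul_coset_of_normal hn (fun t ht => (hle₁ (hle ht)).2) s hs c)]
  refine Finsupp.ext fun c => ?_
  rw [Finsupp.mapRange_apply]
  exact h₀ s (hle₁ (hle hs)).1 _

/-- `Ind_V μ_p` is finite-dimensional over `𝔽_p` if `V` has finite index. -/
lemma indG_muP_finiteDimensional (V : Subgroup PT.GQ) (hfi : V.FiniteIndex) :
    FiniteDimensional (ZMod p) (indG V (muP p)) := by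
  haveI : Finite (PT.GQ ⧸ V) := Subgroup.finite_quotient_of_finiteIndex
  haveI : Finite (MuP p) := MuP.instFinite p
  haveI : Module.Finite (ZMod p) (MuP p) := Module.Finite.of_finite
  show Module.Finite (ZMod p) ((PT.GQ ⧸ V) →₀ MuP p)
  infer_instance

/-- **Leaf K-FIN (GO7).**  Finiteness of `𝒪_{K_V,S}ˣ/p` and of `Cl_S(K_V)[p]` from KUM. -/
theorem finE_of (hK : KummerSpec p S) : FinESpec p S := by
  intro hpS V hV
  have hN : (globalLevels S).NormalCofinal := globalLevels_normal_cofinal724 S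
  have hF : (globalLevels S).FiniteIndex := H424.globalFiniteIndex S
  haveI : FiniteDimensional (ZMod p) (indG V (muP p)) :=
    indG_muP_finiteDimensional p V (hF V hV)
  haveI : Finite ↥((globalLevels S).Z1 (indG V (muP p))) :=
    PT.H593.finite_Z1 p S (indG V (muP p)) (indG_muP_isUSmooth p S hpS hV)
  have hkum := kummer_ind (sUnits S) hN p (fun x hx => hK hpS x hx) hV
  refine ⟨?_, ?_⟩
  · obtain ⟨T, hT⟩ := fin_H0_mod (L := globalLevels S) p (indMuToE p S V)
      (indMuToE_injective p S V) (indMuToE_equivariant p S V) (indMuToE_tors p S V) hkum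
    refine ⟨T, fun e he => ?_⟩
    obtain ⟨e', h1, h2⟩ := hT e he
    exact ⟨e', h1, Submodule.subset_span (Finset.mem_coe.2 h2)⟩
  · obtain ⟨T, hT⟩ := fin_H1_tors (L := globalLevels S) p (indMuToE p S V)
      (indMuToE_injective p S V) (indMuToE_equivariant p S V) (indMuToE_tors p S V) hkum
    refine ⟨T, fun z hz hpz => ?_⟩
    obtain ⟨t, h1, h2⟩ := hT z hz hpz
    exact ⟨t, Submodule.subset_span (Finset.mem_coe.2 h1), h2⟩

end Final

end Fermat.Agent.S55.K.H331

end
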