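/-
S55 moonshot — LAYER K, leaf K-FIN (helper541).

`finE_of : KummerSpec p S → FinESpec p S`

Route (no Dirichlet unit theorem, no class group): Kummer theory + finiteness of `Z¹_S(Ind_V μ_p)`
(`PT.H593.finite_Z1`, unconditional on main).  `M = Ind_V μ ⊂ E = Ind_V 𝔼`, `ι = indMuToE`.

* Part 2 (`H¹_S(E)[p]` finite): `z ∈ Z¹_LC(E)`, `p z = d e` ⇒ `e` is smooth ⇒ (KUM) `e = p ẽ` ⇒
  `z - d ẽ` is killed by `p`, hence `= ι ∘ c` with `c ∈ Z¹_LC(M)`;  `T := {ι ∘ c}`.
* Part 1 (`E^Γ / p` finite): `e ∈ E^Γ` ⇒ (KUM) `e = p ỹ` ⇒ `d ỹ = ι ∘ c`, `c ∈ Z¹_LC(M)`; two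
  invariants with the same `c` differ by `p ·` (an invariant);  `T := {p ỹ_c}`.
-/
import Fermat.Agent.S55.K.T3H397
import Fermat.Agent.S55.PT.FinGlobH593
import Fermat.Agent.S55.PT.CycloLevelH723

set_option autoImplicit false
set_option linter.style.haveILetI false

noncomputable section

namespace Fermat.Agent.S55.K.H541

open groupCohomology Fermat.Agent.S55.PT Fermat.Agent.S55.Bridge Fermat.Agent.S55.K

/-! ### 1. Abstract part -/

section Abstract

variable {G : Type} [Group G] {L : LevelSys G}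
variable {k k' : Type} [CommRing k] [CommRing k']
variable {M : Rep.{0, 0, 0} k G} {E : Rep.{0, 0, 0} k' G}

/-- `d e` is level-constant if `e` is fixed by a level. -/
lemma d01_isLC (e : E) (he : H397.Sm L E e) : L.IsLC₁ ((d₀₁ E).hom e) := by
  obtain ⟨W, hW, h⟩ := he
  refine ⟨W, hW, fun g s hs => ?_⟩
  simp only [d₀₁_hom_apply]
  rw [map_mul, Module.End.mul_apply, h s hs]

/-- `d e` is a cocycle. -/
lemma d01_mem_cocycles₁ (e : E) : (d₀₁ E).hom e ∈ cocycles₁ E := by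
  rw [mem_cocycles₁_iff]
  intro g h
  simp only [d₀₁_hom_apply, map_mul, Module.End.mul_apply, map_sub]
  abel

/-- A level-constant cocycle of `E` killed by `p` comes from a level-constant cocycle of `M`. -/
lemma exists_lift_Z1 (p : ℕ) (ι : M →+ E) (hinj : Function.Injective ι)
    (heq : ∀ g m, ι (M.ρ g m) = E.ρ g (ι m))
    (htors : ∀ e : E, p • e = 0 → ∃ m, ι m = e)
    (κ : G → E) (hκ : κ ∈ cocycles₁ E) (hlc : L.IsLC₁ κ) (hp : ∀ g, p • κ g = 0) :
    ∃ c : ↥(L.Z1 M), ∀ g, ι ((c : G → M) g) = κ g := by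
  choose m hm using fun g => htors (κ g) (hp g)
  have hcoc : m ∈ cocycles₁ M := by
    rw [mem_cocycles₁_iff]
    intro g h
    apply hinj
    rw [map_add, heq, hm, hm, hm]
    exact (mem_cocycles₁_iff κ).1 hκ g h
  have hmlc : L.IsLC₁ m := by
    obtain ⟨U, hU, h⟩ := hlc
    refine ⟨U, hU, fun g s hs => ?_⟩
    apply hinj
    rw [hm, hm, h g s hs]
  exact ⟨⟨m, hcoc, hmlc⟩, hm⟩

/-- **Abstract K-FIN.** -/
theorem finE_abstract (p : ℕ) (ι : M →+ E) (hinj : Function.Injective ι)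
    (heq : ∀ g m, ι (M.ρ g m) = E.ρ g (ι m))
    (htors : ∀ e : E, p • e = 0 → ∃ m, ι m = e)
    (hkum : ∀ x : E, H397.Sm L E x → ∃ y : E, p • y = x ∧ H397.Sm L E y)
    (hfin : Finite ↥(L.Z1 M)) :
    (∃ T : Finset E, ∀ e : E, (∀ g : G, E.ρ g e = e) →
        ∃ e' : E, (∀ g : G, E.ρ g e' = e') ∧ e - p • e' ∈ T) ∧
    (∃ T : Finset (G → E), ∀ z ∈ L.Z1 E, p • z ∈ LevelSys.B1 E →
        ∃ t ∈ T, z - t ∈ LevelSys.B1 E) := by
  classical
  haveI := hfin
  letI : Fintype ↥(L.Z1 M) := Fintype.ofFinite _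
  constructor
  · -- Part 1
    let P : ↥(L.Z1 M) → Prop := fun c => ∃ y : E, ∀ g, ι ((c : G → M) g) = E.ρ g y - y
    let Y : ↥(L.Z1 M) → E := fun c => if h : P c then Classical.choose h else 0
    have hY : ∀ c, P c → ∀ g, ι ((c : G → M) g) = E.ρ g (Y c) - Y c := by
      intro c hc
      have : Y c = Classical.choose hc := dif_pos hc
      rw [this]
      exact Classical.choose_spec hc
    refine ⟨Finset.univ.image (fun c => p • Y c), fun e he => ?_⟩
    obtain ⟨U, hU⟩ := L.nonempty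
    obtain ⟨y, hy, hysm⟩ := hkum e ⟨U, hU, fun s _ => he s⟩
    obtain ⟨c, hc⟩ := exists_lift_Z1 (L := L) p ι hinj heq htors ((d₀₁ E).hom y)
      (d01_mem_cocycles₁ y) (d01_isLC y hysm) (fun g => by
        simp only [d₀₁_hom_apply]
        rw [smul_sub, ← map_nsmul, hy, he g, sub_self])
    have hPc : P c := ⟨y, fun g => by rw [hc g, d₀₁_hom_apply]⟩
    refine ⟨y - Y c, fun g => ?_, ?_⟩
    · have h1 := hY c hPc g
      have h2 := hc g
      rw [d₀₁_hom_apply] at h2
      have h3 : E.ρ g y - y = E.ρ g (Y c) - Y c := by rw [← h2, h1]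
      rw [map_sub]
      have h4 : E.ρ g y - E.ρ g (Y c) - (y - Y c) = 0 := by
        have : E.ρ g y - E.ρ g (Y c) - (y - Y c) = (E.ρ g y - y) - (E.ρ g (Y c) - Y c) := by abel
        rw [this, h3, sub_self]
      exact sub_eq_zero.1 h4
    · have h5 : e - p • (y - Y c) = p • Y c := by
        rw [smul_sub, hy]
        abel
      rw [h5]
      exact Finset.mem_image_of_mem _ (Finset.mem_univ c)
  · -- Part 2
    refine ⟨Finset.univ.image (fun c : ↥(L.Z1 M) => (fun g => ι ((c : G → M) g))),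
      fun z hz hpz => ?_⟩
    obtain ⟨e, he⟩ := hpz
    have hzc : z ∈ cocycles₁ E := hz.1
    have hzlc : L.IsLC₁ z := hz.2
    have hz1 : z 1 = 0 := by
      have h := (mem_cocycles₁_iff z).1 hzc 1 1
      simpa using h
    have hesm : H397.Sm L E e := by
      obtain ⟨U, hU, h⟩ := hzlc
      refine ⟨U, hU, fun s hs => ?_⟩
      have h1 : z s = 0 := by
        have := h 1 s hs
        rwa [one_mul, hz1] at this
      have h2 := congrFun he s
      rw [d₀₁_hom_apply, Pi.smul_apply, h1, smul_zero] at h2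
      exact sub_eq_zero.1 h2
    obtain ⟨y, hy, hysm⟩ := hkum e hesm
    have hκc : z - (d₀₁ E).hom y ∈ cocycles₁ E :=
      Submodule.sub_mem _ hzc (d01_mem_cocycles₁ y)
    have hκlc : L.IsLC₁ (z - (d₀₁ E).hom y) :=
      (L.C1 E).sub_mem hzlc (d01_isLC y hysm)
    obtain ⟨c, hc⟩ := exists_lift_Z1 (L := L) p ι hinj heq htors (z - (d₀₁ E).hom y) hκc hκlc
      (fun g => by
        have h2 := congrFun he g
        rw [d₀₁_hom_apply, Pi.smul_apply] at h2
        simp only [Pi.sub_apply, d₀₁_hom_apply]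
        rw [smul_sub, ← h2, smul_sub, ← map_nsmul, hy, sub_self])
    refine ⟨fun g => ι ((c : G → M) g), Finset.mem_image_of_mem _ (Finset.mem_univ c), ?_⟩
    refine ⟨y, ?_⟩
    funext g
    rw [Pi.sub_apply, hc g, Pi.sub_apply]
    abel

end Abstract

/-! ### 2. The instance `M = Ind_V μ_p`, `E = Ind_V 𝔼` -/

section Final

variable (p : ℕ) [Fact p.Prime] (S : Finset Nat.Primes)

/-- `Ind_V μ_p` is finite-dimensional for a level `V`. -/
lemma finiteDimensional_indMu {V : Subgroup PT.GQ} (hV : V ∈ (globalLevels S).levels) :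
    FiniteDimensional (ZMod p) (indG V (muP p)) := by
  haveI : V.FiniteIndex := H424.globalFiniteIndex S V hV
  haveI : Finite (PT.GQ ⧸ V) := Subgroup.finite_quotient_of_finiteIndex
  haveI : Module.Finite (ZMod p) (MuP p) := Module.Finite.of_finite
  show Module.Finite (ZMod p) ((PT.GQ ⧸ V) →₀ MuP p)
  infer_instance

/-- `Ind_V μ_p` is fixed by an `S`-level if `p ∈ S`. -/
lemma isUSmooth_indMu (hpS : ExtCitation.pPrime p ∈ S) {V : Subgroup PT.GQ}
    (hV : V ∈ (globalLevels S).levels) : (globalLevels S).IsUSmooth (indG V (muP p)) := by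
  obtain ⟨W, hW, hfix⟩ := PT.H723.cycloLevelSpec p S hpS
  obtain ⟨U₁, hU₁, hle₁⟩ := (globalLevels S).directed W hW V hV
  obtain ⟨U, hU, hle, hn⟩ := globalLevels_normal_cofinal724 S U₁ hU₁
  refine ⟨U, hU, fun s hs a => ?_⟩
  have htriv : ∀ c : PT.GQ ⧸ V, s • c = c :=
    H397.smul_coset_of_normal hn (fun t ht => (hle₁ (hle ht)).2) s hs
  have key : ∀ b : MuP p, muPRep p s b = b := fun b => by
    rw [muPRep_apply_smul, hfix s (hle₁ (hle hs)).1, Units.val_one, one_smul]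
  obtain ⟨a', ha'⟩ : ∃ a' : (PT.GQ ⧸ V) →₀ MuP p, a' = a := ⟨a, rfl⟩
  show indρ (MonoidHom.id PT.GQ) V (muP p) s a = a
  rw [H397.indρ_of_trivial (muP p) V s htriv, ← ha']
  refine Finsupp.ext fun c => ?_
  rw [Finsupp.mapRange_apply]
  exact key (a' c)

/-- **Leaf K-FIN.** `𝒪_{K_V,S}ˣ/p` and `Cl_S(K_V)[p]` are finite (cochain form), from KUM. -/
theorem finE_of (hK : KummerSpec p S) : FinESpec p S := by
  intro hpS V hV
  have hN : (globalLevels S).NormalCofinal := globalLevels_normal_cofinal724 S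
  haveI := finiteDimensional_indMu p S hV
  have hfin : Finite ↥((globalLevels S).Z1 (indG V (muP p))) :=
    PT.H593.finite_Z1 p S (indG V (muP p)) (isUSmooth_indMu p S hpS hV)
  obtain ⟨⟨T₁, h₁⟩, ⟨T₂, h₂⟩⟩ := finE_abstract (L := globalLevels S) p (indMuToE p S V)
    (H397.indMuToE_injective p S V) (H397.indMuToE_equivariant p S V)
    (H397.indMuToE_tors p S V)
    (H397.kummer_ind (sUnits S) hN p (fun x hx => hK hpS x hx) hV) hfin
  refine ⟨⟨T₁, fun e he => ?_⟩, ⟨T₂, fun z hz hpz => ?_⟩⟩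
  · obtain ⟨e', he', hmem⟩ := h₁ e he
    exact ⟨e', he', Submodule.subset_span hmem⟩
  · obtain ⟨t, ht, hzt⟩ := h₂ z hz hpz
    exact ⟨t, Submodule.subset_span ht, hzt⟩

end Final

end Fermat.Agent.S55.K.H541
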