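import Fermat.Agent.S55.K.LCH698
import Fermat.Agent.S55.PT.FiniteIndexH424
import Fermat.Agent.S55.PT.LevelsNormal

/-!
# S55 / layer K, leaf K-I1 (helper698): basics of the induced modules `ind φ V A`

* `globalLevels_normalCofinal`, `globalLevels_finiteIndex`, `localLevels_normalCofinal`,
  `localLevels_finiteIndex` (re-exports in `LevelSys` form);
* `ind_ρ_single`, `aug_single`, `indProj_single`, `indMap_single`;
* equivariance: `aug_equivariant`, `indProj_equivariant`, `indMap_equivariant`,
  compatibilities `aug_indProj`, `aug_indMap`, `indProj_indMap`, `indProj_indProj`;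
* `ind_ρ_of_mem_normal` : if `U ≤ V`, `U` normal and `φ s ∈ U` then `s` acts on `Ind_V A`
  coefficientwise; `ind_fixed_iff` : invariants = functions with invariant values;
* `indG_isSmooth`, `indG_isUSmooth`, `ind_isSmooth_pullback`;
* `ind_finite` : `Ind_V A` is a finite module if `V` has finite index and `A` is finite.
-/

set_option autoImplicit false
set_option linter.style.haveILetI false

noncomputable section

namespace Fermat.Agent.S55.K.H698

open groupCohomology Fermat.Agent.S55.PT Fermat.Agent.S55.K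

/-! ### the two level systems -/

theorem globalLevels_normalCofinal (S : Finset Nat.Primes) : (globalLevels S).NormalCofinal :=
  globalLevels_normal_cofinal724 S

theorem localLevels_normalCofinal (q : Nat.Primes) : (localLevels q).NormalCofinal :=
  pullbackLevels_normal_cofinal724 (rl q)

theorem globalLevels_finiteIndex (S : Finset Nat.Primes) : (globalLevels S).FiniteIndex :=
  Fermat.Agent.S55.PT.H424.globalFiniteIndex S

theorem localLevels_finiteIndex (q : Nat.Primes) : (localLevels q).FiniteIndex :=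
  Fermat.Agent.S55.PT.H424.localFiniteIndex q

/-! ### induced modules -/

section Ind

variable {k : Type} [CommRing k] {G H : Type} [Group G] [Group H]
  (φ : H →* G) (V : Subgroup G) (A : Rep.{0, 0, 0} k H)

@[simp] theorem ind_ρ_single (h : H) (x : G ⧸ V) (a : A) :
    (ind φ V A).ρ h (Finsupp.single x a : (G ⧸ V) →₀ A) =
      (Finsupp.single (φ h • x) (A.ρ h a) : (G ⧸ V) →₀ A) :=
  indρ_single φ V A h x a

@[simp] theorem aug_single (x : G ⧸ V) (a : A) :
    aug φ V A (Finsupp.single x a : (G ⧸ V) →₀ A) = a := by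
  show (Finsupp.lsum k (fun _ : G ⧸ V => (LinearMap.id : A →ₗ[k] A))) (Finsupp.single x a) = a
  rw [Finsupp.lsum_single]
  rfl

@[simp] theorem indProj_single {U V : Subgroup G} (hUV : U ≤ V) (g : G) (a : A) :
    indProj φ hUV A (Finsupp.single (QuotientGroup.mk g : G ⧸ U) a : (G ⧸ U) →₀ A) =
      (Finsupp.single (QuotientGroup.mk g : G ⧸ V) a : (G ⧸ V) →₀ A) := by
  show Finsupp.mapDomain _ (Finsupp.single (QuotientGroup.mk g : G ⧸ U) a) = _
  rw [Finsupp.mapDomain_single]
  rfl

@[simp] theorem indMap_single {B : Rep.{0, 0, 0} k H} (f : A →ₗ[k] B) (x : G ⧸ V) (a : A) :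
    indMap φ V f (Finsupp.single x a : (G ⧸ V) →₀ A) =
      (Finsupp.single x (f a) : (G ⧸ V) →₀ B) := by
  show Finsupp.mapRange f (map_zero f) (Finsupp.single x a) = _
  rw [Finsupp.mapRange_single]

/-- two additive maps on `Ind_V A` agreeing on the `single`s are equal -/
theorem ind_hom_ext {M : Type*} [AddCommMonoid M] (f g : ((G ⧸ V) →₀ A) →+ M)
    (h : ∀ x a, f (Finsupp.single x a) = g (Finsupp.single x a)) (z : (G ⧸ V) →₀ A) :
    f z = g z :=
  DFunLike.congr_fun (Finsupp.addHom_ext h) z

theorem aug_equivariant (h : H) (z : ind φ V A) :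
    aug φ V A ((ind φ V A).ρ h z) = A.ρ h (aug φ V A z) := by
  refine ind_hom_ext V A
    (((aug φ V A).comp ((ind φ V A).ρ h)).toAddMonoidHom)
    (((A.ρ h).comp (aug φ V A)).toAddMonoidHom) (fun x a => ?_) z
  show aug φ V A ((ind φ V A).ρ h (Finsupp.single x a)) = A.ρ h (aug φ V A (Finsupp.single x a))
  rw [ind_ρ_single, aug_single, aug_single]

theorem indProj_equivariant {U V : Subgroup G} (hUV : U ≤ V) (h : H) (z : ind φ U A) :
    indProj φ hUV A ((ind φ U A).ρ h z) = (ind φ V A).ρ h (indProj φ hUV A z) := by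
  refine ind_hom_ext U A
    (((indProj φ hUV A).comp ((ind φ U A).ρ h)).toAddMonoidHom)
    ((((ind φ V A).ρ h).comp (indProj φ hUV A)).toAddMonoidHom) (fun x a => ?_) z
  induction x using QuotientGroup.induction_on with
  | H g =>
    show indProj φ hUV A ((ind φ U A).ρ h (Finsupp.single _ a)) =
      (ind φ V A).ρ h (indProj φ hUV A (Finsupp.single _ a))
    rw [ind_ρ_single, indProj_single, ind_ρ_single]
    have e1 : (φ h • (QuotientGroup.mk g : G ⧸ U)) = QuotientGroup.mk (φ h * g) := rfl
    have e2 : (φ h • (QuotientGroup.mk g : G ⧸ V)) = QuotientGroup.mk (φ h * g) := rfl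
    rw [e1, e2, indProj_single]

theorem indMap_equivariant {B : Rep.{0, 0, 0} k H} (f : A →ₗ[k] B)
    (hf : ∀ h a, f (A.ρ h a) = B.ρ h (f a)) (h : H) (z : ind φ V A) :
    indMap φ V f ((ind φ V A).ρ h z) = (ind φ V B).ρ h (indMap φ V f z) := by
  refine ind_hom_ext V A
    (((indMap φ V f).comp ((ind φ V A).ρ h)).toAddMonoidHom)
    ((((ind φ V B).ρ h).comp (indMap φ V f)).toAddMonoidHom) (fun x a => ?_) z
  show indMap φ V f ((ind φ V A).ρ h (Finsupp.single x a)) =
    (ind φ V B).ρ h (indMap φ V f (Finsupp.single x a))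
  rw [ind_ρ_single, indMap_single, indMap_single, ind_ρ_single, hf]

theorem aug_indProj {U V : Subgroup G} (hUV : U ≤ V) (z : ind φ U A) :
    aug φ V A (indProj φ hUV A z) = aug φ U A z := by
  refine ind_hom_ext U A
    (((aug φ V A).comp (indProj φ hUV A)).toAddMonoidHom)
    ((aug φ U A).toAddMonoidHom) (fun x a => ?_) z
  induction x using QuotientGroup.induction_on with
  | H g =>
    show aug φ V A (indProj φ hUV A (Finsupp.single _ a)) = aug φ U A (Finsupp.single _ a)
    rw [indProj_single, aug_single, aug_single]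

theorem aug_indMap {B : Rep.{0, 0, 0} k H} (f : A →ₗ[k] B) (z : ind φ V A) :
    aug φ V B (indMap φ V f z) = f (aug φ V A z) := by
  refine ind_hom_ext V A
    (((aug φ V B).comp (indMap φ V f)).toAddMonoidHom)
    ((f.comp (aug φ V A)).toAddMonoidHom) (fun x a => ?_) z
  show aug φ V B (indMap φ V f (Finsupp.single x a)) = f (aug φ V A (Finsupp.single x a))
  rw [indMap_single, aug_single, aug_single]

theorem indProj_indMap {U V : Subgroup G} (hUV : U ≤ V) {B : Rep.{0, 0, 0} k H}
    (f : A →ₗ[k] B) (z : ind φ U A) :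
    indProj φ hUV B (indMap φ U f z) = indMap φ V f (indProj φ hUV A z) := by
  refine ind_hom_ext U A
    (((indProj φ hUV B).comp (indMap φ U f)).toAddMonoidHom)
    (((indMap φ V f).comp (indProj φ hUV A)).toAddMonoidHom) (fun x a => ?_) z
  induction x using QuotientGroup.induction_on with
  | H g =>
    show indProj φ hUV B (indMap φ U f (Finsupp.single _ a)) =
      indMap φ V f (indProj φ hUV A (Finsupp.single _ a))
    rw [indMap_single, indProj_single, indProj_single, indMap_single]

/-! ### fixed points under a normal subgroup -/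

/-- a normal subgroup `U ≤ V` acts trivially on `G ⧸ V` -/
theorem smul_quotient_of_normal {U V : Subgroup G} (hU : U.Normal) (hUV : U ≤ V) {s : G}
    (hs : s ∈ U) (x : G ⧸ V) : s • x = x := by
  induction x using QuotientGroup.induction_on with
  | H g =>
    show (QuotientGroup.mk (s * g) : G ⧸ V) = QuotientGroup.mk g
    rw [QuotientGroup.eq]
    have : (s * g)⁻¹ * g = g⁻¹ * s⁻¹ * g := by group
    rw [this]
    have h1 := hU.conj_mem s⁻¹ (U.inv_mem hs) g⁻¹
    rw [inv_inv] at h1
    exact hUV h1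

/-- if `φ s` lies in a normal subgroup `U ≤ V`, then `s` acts on `Ind_V A` coefficientwise -/
theorem ind_ρ_of_mem_normal {U V : Subgroup G} (hU : U.Normal) (hUV : U ≤ V) {s : H}
    (hs : φ s ∈ U) (z : ind φ V A) :
    (ind φ V A).ρ s z = (Finsupp.mapRange.linearMap (A.ρ s) (z : (G ⧸ V) →₀ A) :
      (G ⧸ V) →₀ A) := by
  refine ind_hom_ext V A (((ind φ V A).ρ s).toAddMonoidHom)
    ((Finsupp.mapRange.linearMap (A.ρ s)).toAddMonoidHom) (fun x a => ?_) z
  show (ind φ V A).ρ s (Finsupp.single x a) = Finsupp.mapRange.linearMap (A.ρ s)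
    (Finsupp.single x a)
  rw [ind_ρ_single, smul_quotient_of_normal hU hUV hs]
  show _ = Finsupp.mapRange (A.ρ s) (map_zero _) (Finsupp.single x a)
  rw [Finsupp.mapRange_single]

theorem ind_ρ_apply_of_mem_normal {U V : Subgroup G} (hU : U.Normal) (hUV : U ≤ V) {s : H}
    (hs : φ s ∈ U) (z : ind φ V A) (x : G ⧸ V) :
    (show (G ⧸ V) →₀ A from (ind φ V A).ρ s z) x = A.ρ s ((show (G ⧸ V) →₀ A from z) x) := by
  rw [ind_ρ_of_mem_normal φ A hU hUV hs]
  rfl

/-- under a normal `U ≤ V`: `z ∈ Ind_V A` is fixed by `s` iff all its coefficients are -/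
theorem ind_fixed_iff {U V : Subgroup G} (hU : U.Normal) (hUV : U ≤ V) {s : H}
    (hs : φ s ∈ U) (z : ind φ V A) :
    (ind φ V A).ρ s z = z ↔
      ∀ x : G ⧸ V, A.ρ s ((show (G ⧸ V) →₀ A from z) x) = (show (G ⧸ V) →₀ A from z) x := by
  constructor
  · intro h x
    have := ind_ρ_apply_of_mem_normal φ A hU hUV hs z x
    rw [← this, h]
  · intro h
    refine Finsupp.ext fun x => ?_
    exact (ind_ρ_apply_of_mem_normal φ A hU hUV hs z x).trans (h x)

end Ind

/-! ### smoothness of induced modules -/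

section Smooth

variable {k : Type} [CommRing k] {G : Type} [Group G] (L : LevelSys G)

/-- `Ind_V A` is smooth if `A` is (`V` a level, normal levels cofinal). -/
theorem indG_isSmooth (hN : L.NormalCofinal) {V : Subgroup G} (hV : V ∈ L.levels)
    {A : Rep.{0, 0, 0} k G} (hA : L.IsSmooth A) : L.IsSmooth (indG V A) := by
  intro z
  classical
  -- a level fixing all the coefficients of `z`
  let z' : (G ⧸ V) →₀ A := z
  obtain ⟨W, hW, hWfix⟩ := exists_level_fixing_finite L
    (Set.range (fun x : z'.support => z' x)) (Set.finite_range _)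
    (by rintro _ ⟨x, rfl⟩; exact hA _)
  obtain ⟨W', hW', hW'le⟩ := L.directed W hW V hV
  obtain ⟨U, hU, hUW', hUn⟩ := hN W' hW'
  refine ⟨U, hU, fun s hs => ?_⟩
  rw [ind_fixed_iff (MonoidHom.id G) A hUn (hUW'.trans (hW'le.trans inf_le_right))
    (by exact hs)]
  intro x
  by_cases hx : x ∈ z'.support
  · exact hWfix _ ⟨⟨x, hx⟩, rfl⟩ s ((hW'le (hUW' hs)).1)
  · have h0 : z' x = 0 := Finsupp.notMem_support_iff.mp hx
    show A.ρ s (z' x) = z' x
    rw [h0, map_zero]

/-- `Ind_V A` is uniformly smooth if `A` is. -/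
theorem indG_isUSmooth (hN : L.NormalCofinal) {V : Subgroup G} (hV : V ∈ L.levels)
    {A : Rep.{0, 0, 0} k G} (hA : L.IsUSmooth A) : L.IsUSmooth (indG V A) := by
  obtain ⟨W, hW, hWfix⟩ := hA
  obtain ⟨W', hW', hW'le⟩ := L.directed W hW V hV
  obtain ⟨U, hU, hUW', hUn⟩ := hN W' hW'
  refine ⟨U, hU, fun s hs z => ?_⟩
  rw [ind_fixed_iff (MonoidHom.id G) A hUn (hUW'.trans (hW'le.trans inf_le_right))
    (by exact hs)]
  intro x
  exact hWfix s ((hW'le (hUW' hs)).1) _

/-- elements of `Ind_V A` fixed by a normal level `U ≤ V` have `U`-fixed coefficients -/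
theorem coeff_fixed_of_fixed {U V : Subgroup G} (hU : U.Normal) (hUV : U ≤ V)
    {A : Rep.{0, 0, 0} k G} (z : indG V A) (hz : ∀ s ∈ U, (indG V A).ρ s z = z) (x : G ⧸ V) :
    ∀ s ∈ U, A.ρ s ((show (G ⧸ V) →₀ A from z) x) = (show (G ⧸ V) →₀ A from z) x := fun s hs =>
  (ind_fixed_iff (MonoidHom.id G) A hU hUV (by exact hs) z).mp (hz s hs) x

end Smooth

section Finite

variable {k : Type} [CommRing k] {G H : Type} [Group G] [Group H]

/-- `Ind_V A` is a finite module if `V` has finite index and `A` is finite. -/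
theorem ind_finite (φ : H →* G) (V : Subgroup G) [V.FiniteIndex] (A : Rep.{0, 0, 0} k H)
    [Module.Finite k A] : Module.Finite k (ind φ V A) := by
  haveI : Finite (G ⧸ V) := Subgroup.finite_quotient_of_finiteIndex
  exact inferInstanceAs (Module.Finite k ((G ⧸ V) →₀ A))

end Finite

end Fermat.Agent.S55.K.H698
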