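import Fermat.Agent.S55.K.Spec
import Fermat.Agent.S55.Bridge.SUnitsDiv

/-!
# S55, layer K, leaf K-KUM (helper334): `kummer : KummerSpec p S`

The `S`-smooth `S`-units of `ℚ̄` are `p`-divisible (`p ∈ S`): an `S`-unit `x` fixed by a level
`G_F` (`F/ℚ` finite, unramified outside `S`) has a `p`-th root `β`, which is an `S`-unit, and
`F(β)` is again unramified outside `S` (`Bridge.isUnramifiedOutside_sup_adjoin_root_unit`),
so `β` is fixed by the level `G_{F(β)}`.
-/

set_option autoImplicit false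

noncomputable section

namespace Fermat.Agent.S55.K.H334

open Fermat.Agent.S55.PT Fermat.Agent.S55.Bridge Fermat.Agent.S55.K ExtCitation IntermediateField

attribute [local instance] isAlgebraic_Qbar isGalois_Qbar

/-- A valuation subring of `ℚ̄` lying over a prime `q ∉ S` is outside `S`. -/
theorem outsideS_of_liesOverPrime {S : Finset Nat.Primes} {q : Nat.Primes} (hq : q ∉ S)
    {A : ValuationSubring Qbar} (hA : A.LiesOverPrime (q : ℕ)) : OutsideS S A := by
  intro q' hq' hA'
  have hne : (q : ℕ) ≠ (q' : ℕ) := by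
    intro h
    apply hq
    have : q = q' := Subtype.ext h
    rw [this]
    exact hq'
  have h1 : A.valuation ((q' : ℕ) : AlgebraicClosure ℚ) = 1 :=
    val_prime_eq_one (A := A) hA q.2 q'.2 hne
  have h2 : A.valuation ((q' : ℕ) : AlgebraicClosure ℚ) < 1 := (A.mem_nonunits_iff).mp hA'
  rw [h1] at h2
  exact lt_irrefl _ h2

/-- The underlying unit of an element of `𝔼`. -/
def toUnit (S : Finset Nat.Primes) (x : sUnits S) : Qbarˣ :=
  Additive.toMul (sUnitsIncl S x : Additive Qbarˣ)

theorem toUnit_isSUnit (S : Finset Nat.Primes) (x : sUnits S) : IsSUnit S (toUnit S x) :=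
  x.2

theorem toUnit_ρ (S : Finset Nat.Primes) (s : GQ) (x : sUnits S) :
    ((toUnit S ((sUnits S).ρ s x) : Qbarˣ) : Qbar) = s ((toUnit S x : Qbarˣ) : Qbar) :=
  rfl

theorem toUnit_injective (S : Finset Nat.Primes) : Function.Injective (toUnit S) := by
  intro x y h
  apply Subtype.ext
  exact Additive.toMul.injective h

theorem toUnit_nsmul (S : Finset Nat.Primes) (n : ℕ) (y : sUnits S) :
    toUnit S (n • y) = toUnit S y ^ n :=
  rfl

/-- **K-KUM.** -/
theorem kummer (p : ℕ) [Fact p.Prime] (S : Finset Nat.Primes) : KummerSpec p S := by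
  have hp : p.Prime := Fact.out
  rintro hpS x ⟨U, ⟨F, hF, rfl⟩, hfix⟩
  set u : Qbarˣ := toUnit S x with hu
  have hxS : IsSUnit S u := toUnit_isSUnit S x
  -- `u ∈ F`
  have huF : (u : Qbar) ∈ F := by
    rw [← InfiniteGalois.fixedField_fixingSubgroup F, IntermediateField.mem_fixedField_iff]
    intro σ hσ
    have h := hfix σ hσ
    have h' := congrArg (fun z : sUnits S => ((toUnit S z : Qbarˣ) : Qbar)) h
    simp only [toUnit_ρ] at h'
    exact h'
  -- a `p`-th root
  obtain ⟨β, hβ⟩ := IsAlgClosed.exists_pow_nat_eq (u : Qbar) hp.pos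
  have hβ0 : β ≠ 0 := by
    rintro rfl
    rw [zero_pow hp.ne_zero] at hβ
    exact u.ne_zero hβ.symm
  -- valuations
  have hvβ' : ∀ A : ValuationSubring Qbar, OutsideS S A → A.valuation β = 1 := by
    intro A hA
    have h : A.valuation (u : Qbar) = 1 :=
      valuation_unit_eq_one u (hxS A hA).1 (hxS A hA).2
    rw [← hβ, map_pow] at h
    exact (pow_eq_one_iff.1 h).resolve_right hp.ne_zero
  have hvβ : ∀ q : Nat.Primes, q ∉ S → ∀ A : ValuationSubring (AlgebraicClosure ℚ),
      A.LiesOverPrime (q : ℕ) → A.valuation β = 1 := fun q hq A hA =>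
    hvβ' A (outsideS_of_liesOverPrime hq hA)
  -- the Kummer level
  have hK : (F ⊔ ℚ⟮β⟯).IsUnramifiedOutside S :=
    isUnramifiedOutside_sup_adjoin_root_unit S hpS hF (by rw [hβ]; exact huF) hvβ
  have hβK : β ∈ F ⊔ ℚ⟮β⟯ :=
    le_sup_right (a := F) (IntermediateField.mem_adjoin_simple_self ℚ β)
  -- the root as an `S`-unit
  have hβS : IsSUnit S (Units.mk0 β hβ0) := by
    intro A hA
    have hv : A.valuation β = 1 := hvβ' A hA
    constructor
    · show β ∈ A
      exact (A.valuation_le_one_iff β).1 hv.le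
    · show ((Units.mk0 β hβ0)⁻¹ : (AlgebraicClosure ℚ)ˣ).1 ∈ A
      rw [Units.val_inv_eq_inv_val, Units.val_mk0, ← A.valuation_le_one_iff, map_inv₀, hv,
        inv_one]
  let y : sUnits S := ⟨Additive.ofMul (Units.mk0 β hβ0), hβS⟩
  have hy : toUnit S y = Units.mk0 β hβ0 := rfl
  refine ⟨y, ?_, (F ⊔ ℚ⟮β⟯).fixingSubgroup, ⟨F ⊔ ℚ⟮β⟯, hK, rfl⟩, ?_⟩
  · apply toUnit_injective
    rw [toUnit_nsmul, hy]
    apply Units.ext
    rw [Units.val_pow_eq_pow_val, Units.val_mk0, hβ]
  · intro s hs
    apply toUnit_injective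
    apply Units.ext
    rw [toUnit_ρ, hy, Units.val_mk0]
    exact (IntermediateField.mem_fixingSubgroup_iff _ _).1 hs β hβK

end Fermat.Agent.S55.K.H334

end
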