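import Fermat.Agent.S55.K.IndH698

/-!
# S55 / layer K, leaf K-I1, arithmetic part (helper698): the Kummer sequence `0 → μ → 𝔼 → 𝔼`
and the local maps, with equivariance

* `addPush_d₀₁/₁₂/₂₃`, `addPush_d34` : `d` commutes with an ADDITIVE equivariant map between
  representations over possibly different coefficient rings (`μ` is a `ZMod p`-module, `𝔼` a
  `ℤ`-module);
* `muToE_equivariant`, `nsmul_muToE`, `exists_muToE_of_nsmul_eq_zero` (the kernel of `p` on `𝔼`
  is `μ`);
* `indMuToE_single`, `indMuToE_equivariant`, `indMuToE_injective`, `nsmul_indMuToE`,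
  `exists_indMuToE_of_nsmul_eq_zero`;
* `exists_cochain_indMuToE` : a cochain of `Ind_V 𝔼` killed by `p` comes from a unique cochain of
  `Ind_V μ` (with the same level-constancy);
* `locE_equivariant`, `indLocE_equivariant`.
-/

set_option autoImplicit false
set_option linter.style.haveILetI false

noncomputable section

namespace Fermat.Agent.S55.K.H698

open groupCohomology Fermat.Agent.S55.PT Fermat.Agent.S55.K Fermat.Agent.S55.Bridge

/-! ### additive push-forward -/

section AddPush

variable {k k' : Type} [CommRing k] [CommRing k'] {G : Type} [Group G]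
  {A : Rep.{0, 0, 0} k G} {B : Rep.{0, 0, 0} k' G} (φ : A →+ B)
  (hφ : ∀ (g : G) (a : A), φ (A.ρ g a) = B.ρ g (φ a))

include hφ in
theorem addPush_d₀₁ (m : A) : (d₀₁ B).hom (φ m) = φ ∘ (d₀₁ A).hom m := by
  funext g
  simp only [d₀₁_hom_apply, Function.comp_apply, map_sub, hφ]

include hφ in
theorem addPush_d₁₂ (f : G → A) : (d₁₂ B).hom (φ ∘ f) = φ ∘ (d₁₂ A).hom f := by
  funext ⟨g, h⟩
  simp only [d₁₂_hom_apply, Function.comp_apply, map_add, map_sub, hφ]

include hφ in
theorem addPush_d₂₃ (f : G × G → A) : (d₂₃ B).hom (φ ∘ f) = φ ∘ (d₂₃ A).hom f := by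
  funext ⟨g, h, j⟩
  simp only [d₂₃_hom_apply, Function.comp_apply, map_add, map_sub, hφ]

include hφ in
theorem addPush_d34 (f : G × G × G → A) : d34 B (φ ∘ f) = φ ∘ d34 A f := by
  funext ⟨g, h, j, l⟩
  simp only [d34, Function.comp_apply, map_add, map_sub, hφ]

end AddPush

/-! ### the Kummer sequence -/

section Kummer

variable (p : ℕ) [Fact p.Prime] (S : Finset Nat.Primes)

/-- the underlying unit of an `S`-unit -/
def sUnitVal (e : sUnits S) : Qbarˣ := Additive.toMul (sUnitsIncl S e)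

theorem sUnitVal_injective : Function.Injective (sUnitVal S) := by
  intro e e' h
  exact Subtype.ext h

@[simp] theorem sUnitVal_add (e e' : sUnits S) :
    sUnitVal S (e + e') = sUnitVal S e * sUnitVal S e' := rfl

@[simp] theorem sUnitVal_zero : sUnitVal S (0 : sUnits S) = 1 := rfl

theorem sUnitVal_nsmul (n : ℕ) (e : sUnits S) : sUnitVal S (n • e) = sUnitVal S e ^ n := by
  induction n with
  | zero => simp
  | succ n ih => rw [succ_nsmul, sUnitVal_add, ih, pow_succ]

theorem sUnitVal_ρ (σ : GQ) (e : sUnits S) :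
    sUnitVal S ((sUnits S).ρ σ e) = σ • sUnitVal S e := rfl

theorem sUnitVal_muToE (x : muP p) :
    sUnitVal S (muToE p S x) = ((MuP.root (p := p) x : rootsOfUnity p Qbar) : Qbarˣ) := rfl

theorem muToE_equivariant (σ : GQ) (x : muP p) :
    muToE p S ((muP p).ρ σ x) = (sUnits S).ρ σ (muToE p S x) := by
  apply sUnitVal_injective
  rw [sUnitVal_muToE, sUnitVal_ρ, sUnitVal_muToE]
  apply Units.ext
  exact muPRep_apply p σ x

theorem nsmul_muToE (x : muP p) : p • muToE p S x = 0 := by
  apply sUnitVal_injective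
  rw [sUnitVal_nsmul, sUnitVal_muToE, sUnitVal_zero]
  exact (mem_rootsOfUnity p _).1 (MuP.root (p := p) x).2

theorem exists_muToE_of_nsmul_eq_zero (e : sUnits S) (h : p • e = 0) :
    ∃ x : muP p, muToE p S x = e := by
  have h1 : sUnitVal S e ^ p = 1 := by
    rw [← sUnitVal_nsmul, h, sUnitVal_zero]
  refine ⟨MuP.of p ⟨sUnitVal S e, (mem_rootsOfUnity p _).2 h1⟩, ?_⟩
  apply sUnitVal_injective
  rfl

end Kummer

/-! ### the induced Kummer sequence -/

section IndKummer

variable (p : ℕ) [Fact p.Prime] (S : Finset Nat.Primes) (V : Subgroup GQ)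

@[simp] theorem indMuToE_single (x : GQ ⧸ V) (a : muP p) :
    indMuToE p S V (Finsupp.single x a : (GQ ⧸ V) →₀ muP p) =
      (Finsupp.single x (muToE p S a) : (GQ ⧸ V) →₀ sUnits S) := by
  show Finsupp.mapRange (muToE p S) (map_zero _) (Finsupp.single x a) = _
  rw [Finsupp.mapRange_single]

theorem indMuToE_apply (z : indG V (muP p)) (x : GQ ⧸ V) :
    (show (GQ ⧸ V) →₀ sUnits S from indMuToE p S V z) x =
      muToE p S ((show (GQ ⧸ V) →₀ muP p from z) x) := rfl

theorem indMuToE_equivariant (σ : GQ) (z : indG V (muP p)) :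
    indMuToE p S V ((indG V (muP p)).ρ σ z) = (indG V (sUnits S)).ρ σ (indMuToE p S V z) := by
  refine ind_hom_ext V (muP p)
    ((indMuToE p S V).comp ((indG V (muP p)).ρ σ).toAddMonoidHom)
    ((((indG V (sUnits S)).ρ σ).toAddMonoidHom).comp (indMuToE p S V)) (fun x a => ?_) z
  show indMuToE p S V ((indG V (muP p)).ρ σ (Finsupp.single x a)) =
    (indG V (sUnits S)).ρ σ (indMuToE p S V (Finsupp.single x a))
  rw [ind_ρ_single, indMuToE_single, indMuToE_single, ind_ρ_single, muToE_equivariant]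

theorem indMuToE_injective : Function.Injective (indMuToE p S V) := by
  intro z z' h
  refine Finsupp.ext fun x => ?_
  have := DFunLike.congr_fun (show (show (GQ ⧸ V) →₀ sUnits S from indMuToE p S V z) =
    (show (GQ ⧸ V) →₀ sUnits S from indMuToE p S V z') from h) x
  exact muToE_injective p S this

theorem nsmul_indMuToE (z : indG V (muP p)) : p • indMuToE p S V z = 0 := by
  refine Finsupp.ext fun x => ?_
  show p • muToE p S _ = 0
  exact nsmul_muToE p S _

theorem exists_indMuToE_of_nsmul_eq_zero (z : indG V (sUnits S)) (h : p • z = 0) :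
    ∃ w : indG V (muP p), indMuToE p S V w = z := by
  classical
  let z' : (GQ ⧸ V) →₀ sUnits S := z
  have hz : ∀ x, p • z' x = 0 := fun x => by
    have := DFunLike.congr_fun (show p • z' = 0 from h) x
    simpa using this
  choose β hβ using fun x => exists_muToE_of_nsmul_eq_zero p S (z' x) (hz x)
  let w : (GQ ⧸ V) →₀ muP p := Finsupp.onFinset z'.support (fun x => if z' x = 0 then 0 else β x)
    (fun x hx => by
      rw [Finsupp.mem_support_iff]
      intro h0
      exact hx (by simp [h0]))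
  refine ⟨w, Finsupp.ext fun x => ?_⟩
  show muToE p S (w x) = z' x
  by_cases h0 : z' x = 0
  · have : w x = 0 := by simp [w, h0]
    rw [this, map_zero, h0]
  · have : w x = β x := by simp [w, h0]
    rw [this, hβ]

/-- a cochain of `Ind_V 𝔼` killed by `p` comes from a cochain of `Ind_V μ` -/
theorem exists_cochain_indMuToE {X : Type*} (f : X → indG V (sUnits S))
    (h : ∀ x, p • f x = 0) :
    ∃ f' : X → indG V (muP p), (∀ x, indMuToE p S V (f' x) = f x) ∧
      ∀ x y, f x = f y → f' x = f' y := by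
  choose f' hf' using fun x => exists_indMuToE_of_nsmul_eq_zero p S V (f x) (h x)
  refine ⟨f', hf', fun x y hxy => ?_⟩
  apply indMuToE_injective p S V
  rw [hf', hf', hxy]

/-- level-constancy descends along `Ind_V μ → Ind_V 𝔼`, degree 1 -/
theorem isLC₁_of_indMuToE (L : LevelSys GQ) {f' : GQ → indG V (muP p)}
    (h : L.IsLC₁ (fun g => indMuToE p S V (f' g))) : L.IsLC₁ f' := by
  obtain ⟨U, hU, hf⟩ := h
  exact ⟨U, hU, fun g s hs => indMuToE_injective p S V (hf g s hs)⟩

/-- level-constancy descends along `Ind_V μ → Ind_V 𝔼`, degree 2 -/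
theorem isLC₂_of_indMuToE (L : LevelSys GQ) {f' : GQ × GQ → indG V (muP p)}
    (h : L.IsLC₂ (fun x => indMuToE p S V (f' x))) : L.IsLC₂ f' := by
  obtain ⟨U, hU, hf⟩ := h
  exact ⟨U, hU, fun g g' s s' hs hs' => indMuToE_injective p S V (hf g g' s s' hs hs')⟩

/-- level-constancy descends along `Ind_V μ → Ind_V 𝔼`, degree 3 -/
theorem isLC₃_of_indMuToE (L : LevelSys GQ) {f' : GQ × GQ × GQ → indG V (muP p)}
    (h : IsLC₃ L (fun x => indMuToE p S V (f' x))) : IsLC₃ L f' := by
  obtain ⟨U, hU, hf⟩ := h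
  exact ⟨U, hU, fun g₁ g₂ g₃ s₁ s₂ s₃ h₁ h₂ h₃ =>
    indMuToE_injective p S V (hf g₁ g₂ g₃ s₁ s₂ s₃ h₁ h₂ h₃)⟩

/-- `d₂₃` commutes with `Ind_V μ → Ind_V 𝔼` -/
theorem indMuToE_d₂₃ (f : GQ × GQ → indG V (muP p)) :
    (d₂₃ (indG V (sUnits S))).hom (indMuToE p S V ∘ f) =
      indMuToE p S V ∘ (d₂₃ (indG V (muP p))).hom f :=
  addPush_d₂₃ (indMuToE p S V) (indMuToE_equivariant p S V) f

/-- `d₁₂` commutes with `Ind_V μ → Ind_V 𝔼` -/
theorem indMuToE_d₁₂ (f : GQ → indG V (muP p)) :
    (d₁₂ (indG V (sUnits S))).hom (indMuToE p S V ∘ f) =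
      indMuToE p S V ∘ (d₁₂ (indG V (muP p))).hom f :=
  addPush_d₁₂ (indMuToE p S V) (indMuToE_equivariant p S V) f

end IndKummer

/-! ### the local maps -/

section Local

variable (q : Nat.Primes) (S : Finset Nat.Primes)

theorem locUnitsMap_equivariant (h : Gl q) (u : Tow.unitsQbar) :
    locUnitsMap q (Tow.unitsQbar.ρ (rl q h) u) = (Tow.unitsQpbar q).ρ h (locUnitsMap q u) := by
  letI : Fact (q : ℕ).Prime := ⟨q.2⟩
  apply Additive.toMul.injective
  apply Units.ext
  exact padicEmbedding_localGaloisToGlobal (q : ℕ) h _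

theorem locE_equivariant (h : Gl q) (e : sUnits S) :
    locE q S ((sUnits S).ρ (rl q h) e) = (Tow.unitsQpbar q).ρ h (locE q S e) :=
  locUnitsMap_equivariant q h (sUnitsIncl S e)

@[simp] theorem indLocE_single (V : Subgroup GQ) (x : GQ ⧸ V) (a : sUnits S) :
    indLocE q S V (Finsupp.single x a : (GQ ⧸ V) →₀ sUnits S) =
      (Finsupp.single x (locE q S a) : (GQ ⧸ V) →₀ Tow.unitsQpbar q) := by
  show Finsupp.mapRange (locE q S) (map_zero _) (Finsupp.single x a) = _
  rw [Finsupp.mapRange_single]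

theorem indLocE_equivariant (V : Subgroup GQ) (h : Gl q) (z : indG V (sUnits S)) :
    indLocE q S V ((indG V (sUnits S)).ρ (rl q h) z) =
      (ind (rl q) V (Tow.unitsQpbar q)).ρ h (indLocE q S V z) := by
  refine ind_hom_ext V (sUnits S)
    (((indLocE q S V).comp ((indG V (sUnits S)).ρ (rl q h))).toAddMonoidHom)
    ((((ind (rl q) V (Tow.unitsQpbar q)).ρ h).comp (indLocE q S V)).toAddMonoidHom)
    (fun x a => ?_) z
  show indLocE q S V ((indG V (sUnits S)).ρ (rl q h) (Finsupp.single x a)) =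
    (ind (rl q) V (Tow.unitsQpbar q)).ρ h (indLocE q S V (Finsupp.single x a))
  rw [ind_ρ_single, indLocE_single, indLocE_single, ind_ρ_single, locE_equivariant]
  rfl

end Local

end Fermat.Agent.S55.K.H698
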