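import Fermat.Agent.S55.K.Defs

/-!
# S55 / layer K, leaf K-I2, K-I3, K-I4 (helper698): the level-constant cochain toolbox

Generic (`L : LevelSys G`, `A : Rep k G`, `k` any commutative ring, no smoothness of `A`):

* K-I2 `finite_range_of_isLC₁/₂/₃` : a level-constant cochain has finitely many values
  (levels of finite index); `exists_level_fixing_finite` : finitely many smooth vectors are fixed
  by a common level; `exists_normal_level_le₂/₃`.
* K-I3 (KEY REMARK) `fixed_of_d₀₁`, `values_fixed₁`, `values_fixed₂` : if `U` is normal, `b` is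
  constant mod `U` and `d b` is constant mod `U` (in the first variable), then all values of `b`
  are `U`-invariant.  Level forms `exists_level_values_fixed₁/₂`.
* K-I4 `isLC₁_d₀₁_of_fixed`, `isLC₂_d₁₂_of_fixed`, `isLC₃_d₂₃_of_fixed` : `d` of a level-constant
  cochain with uniformly fixed values is level-constant; `exists_lift₁`, `exists_lift₂` : a
  level-constant cochain with values in `φ(B^{smooth})` lifts to a level-constant cochain of `B`
  with uniformly fixed values (hence with level-constant coboundary).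
-/

set_option autoImplicit false
set_option linter.style.haveILetI false

noncomputable section

namespace Fermat.Agent.S55.K.H698

open groupCohomology Fermat.Agent.S55.PT Fermat.Agent.S55.K

variable {G : Type} [Group G]

/-! ### K-I2: finiteness of values -/

section Finite

variable {L : LevelSys G}

/-- a representative of `g` modulo `U` differs from `g` by an element of `U` on the right -/
lemma out_mk_eq_mul (U : Subgroup G) (g : G) :
    ∃ s ∈ U, (QuotientGroup.mk g : G ⧸ U).out = g * s := by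
  obtain ⟨h, hh⟩ := QuotientGroup.mk_out_eq_mul U g
  exact ⟨h, h.2, hh⟩

lemma mul_out_mk (U : Subgroup G) (g : G) :
    ∃ s ∈ U, g = (QuotientGroup.mk g : G ⧸ U).out * s := by
  obtain ⟨s, hs, h⟩ := out_mk_eq_mul U g
  exact ⟨s⁻¹, U.inv_mem hs, by rw [h, mul_inv_cancel_right]⟩

theorem finite_range_of_isLC₁ (hL : L.FiniteIndex) {X : Type*} {f : G → X} (hf : L.IsLC₁ f) :
    (Set.range f).Finite := by
  obtain ⟨U, hU, h⟩ := hf
  haveI := hL U hU
  haveI : Finite (G ⧸ U) := Subgroup.finite_quotient_of_finiteIndex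
  refine (Set.finite_range (fun x : G ⧸ U => f x.out)).subset ?_
  rintro _ ⟨g, rfl⟩
  obtain ⟨s, hs, hg⟩ := mul_out_mk U g
  exact ⟨QuotientGroup.mk g, by rw [hg, h _ s hs, ← hg]⟩

theorem finite_range_of_isLC₂ (hL : L.FiniteIndex) {X : Type*} {f : G × G → X}
    (hf : L.IsLC₂ f) : (Set.range f).Finite := by
  obtain ⟨U, hU, h⟩ := hf
  haveI := hL U hU
  haveI : Finite (G ⧸ U) := Subgroup.finite_quotient_of_finiteIndex
  refine (Set.finite_range (fun x : (G ⧸ U) × (G ⧸ U) => f (x.1.out, x.2.out))).subset ?_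
  rintro _ ⟨⟨g, g'⟩, rfl⟩
  obtain ⟨s, hs, hg⟩ := mul_out_mk U g
  obtain ⟨s', hs', hg'⟩ := mul_out_mk U g'
  refine ⟨(QuotientGroup.mk g, QuotientGroup.mk g'), ?_⟩
  show f (_, _) = f (g, g')
  conv_rhs => rw [hg, hg']
  exact (h _ _ s s' hs hs').symm

theorem finite_range_of_isLC₃ (hL : L.FiniteIndex) {X : Type*} {f : G × G × G → X}
    (hf : IsLC₃ L f) : (Set.range f).Finite := by
  obtain ⟨U, hU, h⟩ := hf
  haveI := hL U hU
  haveI : Finite (G ⧸ U) := Subgroup.finite_quotient_of_finiteIndex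
  refine (Set.finite_range
    (fun x : (G ⧸ U) × (G ⧸ U) × (G ⧸ U) => f (x.1.out, x.2.1.out, x.2.2.out))).subset ?_
  rintro _ ⟨⟨g, g', g''⟩, rfl⟩
  obtain ⟨s, hs, hg⟩ := mul_out_mk U g
  obtain ⟨s', hs', hg'⟩ := mul_out_mk U g'
  obtain ⟨s'', hs'', hg''⟩ := mul_out_mk U g''
  refine ⟨(QuotientGroup.mk g, QuotientGroup.mk g', QuotientGroup.mk g''), ?_⟩
  show f (_, _, _) = f (g, g', g'')
  conv_rhs => rw [hg, hg', hg'']
  exact (h _ _ _ s s' s'' hs hs' hs'').symm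

/-- finitely many levels contain a common level -/
theorem exists_level_le_finite (L : LevelSys G) {ι : Type*} (T : Set ι) (hT : T.Finite)
    (W : ι → Subgroup G) (hW : ∀ i ∈ T, W i ∈ L.levels) :
    ∃ U ∈ L.levels, ∀ i ∈ T, U ≤ W i := by
  induction T, hT using Set.Finite.induction_on with
  | empty =>
    obtain ⟨U, hU⟩ := L.nonempty
    exact ⟨U, hU, by simp⟩
  | @insert a T _ _ ih =>
    obtain ⟨U, hU, hle⟩ := ih (fun i hi => hW i (Set.mem_insert_of_mem _ hi))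
    obtain ⟨V, hV, hVle⟩ := L.directed U hU (W a) (hW a (Set.mem_insert _ _))
    refine ⟨V, hV, fun i hi => ?_⟩
    rcases Set.mem_insert_iff.mp hi with rfl | hi'
    · exact hVle.trans inf_le_right
    · exact (hVle.trans inf_le_left).trans (hle i hi')

variable {k : Type} [CommRing k] {A : Rep.{0, 0, 0} k G}

/-- finitely many smooth vectors are fixed by a common level -/
theorem exists_level_fixing_finite (L : LevelSys G) (T : Set A) (hT : T.Finite)
    (h : ∀ a ∈ T, ∃ U ∈ L.levels, ∀ s ∈ U, A.ρ s a = a) :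
    ∃ U ∈ L.levels, ∀ a ∈ T, ∀ s ∈ U, A.ρ s a = a := by
  classical
  choose! W hW hfix using h
  obtain ⟨U, hU, hle⟩ := exists_level_le_finite L T hT W hW
  exact ⟨U, hU, fun a ha s hs => hfix a ha s (hle a ha hs)⟩

end Finite

/-! ### K-I3: the KEY REMARK -/

section KeyRemark

variable {k : Type} [CommRing k] {A : Rep.{0, 0, 0} k G}

/-- degree 0: if `d b` is constant mod `U` then `b` is `U`-invariant -/
theorem fixed_of_d₀₁ {U : Subgroup G} (b : A)
    (h : ∀ s ∈ U, (d₀₁ A).hom b s = (d₀₁ A).hom b 1) : ∀ s ∈ U, A.ρ s b = b := by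
  intro s hs
  have := h s hs
  simp only [d₀₁_hom_apply, map_one, Module.End.one_apply, sub_self] at this
  exact sub_eq_zero.mp this

/-- degree 1: `U` normal, `b` constant mod `U`, `d b` constant mod `U` in the first variable
⟹ all values of `b` are `U`-invariant -/
theorem values_fixed₁ {U : Subgroup G} (hU : U.Normal) (b : G → A)
    (hb : ∀ g s, s ∈ U → b (g * s) = b g)
    (hdb : ∀ h s, s ∈ U → (d₁₂ A).hom b (s, h) = (d₁₂ A).hom b (1, h)) :
    ∀ g, ∀ s ∈ U, A.ρ s (b g) = b g := by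
  intro h s hs
  have e := hdb h s hs
  simp only [d₁₂_hom_apply, map_one, Module.End.one_apply, one_mul] at e
  have hconj : h⁻¹ * s * h ∈ U := by
    have := hU.conj_mem s hs h⁻¹
    simpa using this
  have e1 : b (s * h) = b h := by
    have : s * h = h * (h⁻¹ * s * h) := by group
    rw [this, hb h _ hconj]
  have e2 : b s = b 1 := by
    have := hb 1 s hs
    rwa [one_mul] at this
  rw [e1, e2] at e
  -- e : ρ s (b h) - b h + b 1 = b h - b h + b 1
  have h3 : (A.ρ s (b h) - b h + b 1) - (b h - b h + b 1) = 0 := by rw [e, sub_self]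
  have h4 : A.ρ s (b h) - b h = (A.ρ s (b h) - b h + b 1) - (b h - b h + b 1) := by abel
  exact sub_eq_zero.mp (h4.trans h3)

/-- degree 2: `U` normal, `b` constant mod `U`, `d b` constant mod `U` in the first variable
⟹ all values of `b` are `U`-invariant -/
theorem values_fixed₂ {U : Subgroup G} (hU : U.Normal) (b : G × G → A)
    (hb : ∀ g h s s', s ∈ U → s' ∈ U → b (g * s, h * s') = b (g, h))
    (hdb : ∀ h j s, s ∈ U → (d₂₃ A).hom b (s, h, j) = (d₂₃ A).hom b (1, h, j)) :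
    ∀ g h, ∀ s ∈ U, A.ρ s (b (g, h)) = b (g, h) := by
  intro h j s hs
  have e := hdb h j s hs
  simp only [d₂₃_hom_apply, map_one, Module.End.one_apply, one_mul] at e
  have hconj : h⁻¹ * s * h ∈ U := by
    have := hU.conj_mem s hs h⁻¹
    simpa using this
  have e1 : b (s * h, j) = b (h, j) := by
    have h1 : s * h = h * (h⁻¹ * s * h) := by group
    have h2 := hb h j (h⁻¹ * s * h) 1 hconj U.one_mem
    rw [mul_one] at h2
    rw [h1, h2]
  have e2 : ∀ x, b (s, x) = b (1, x) := by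
    intro x
    have h2 := hb 1 x s 1 hs U.one_mem
    rwa [one_mul, mul_one] at h2
  rw [e1, e2, e2] at e
  have h3 : (A.ρ s (b (h, j)) - b (h, j) + b (1, h * j) - b (1, h)) -
      (b (h, j) - b (h, j) + b (1, h * j) - b (1, h)) = 0 := by rw [e, sub_self]
  have h4 : A.ρ s (b (h, j)) - b (h, j) = (A.ρ s (b (h, j)) - b (h, j) + b (1, h * j) - b (1, h)) -
      (b (h, j) - b (h, j) + b (1, h * j) - b (1, h)) := by abel
  exact sub_eq_zero.mp (h4.trans h3)

variable (L : LevelSys G)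

/-- level form of the KEY REMARK, degree 1 -/
theorem exists_level_values_fixed₁ (hN : L.NormalCofinal) {b : G → A} (hb : L.IsLC₁ b)
    (hdb : L.IsLC₂ ((d₁₂ A).hom b)) :
    ∃ U ∈ L.levels, U.Normal ∧ ∀ g, ∀ s ∈ U, A.ρ s (b g) = b g := by
  obtain ⟨U, hU, h⟩ := hb
  obtain ⟨V, hV, h'⟩ := hdb
  obtain ⟨W, hW, hWle⟩ := L.directed U hU V hV
  obtain ⟨N, hNl, hNW, hNn⟩ := hN W hW
  refine ⟨N, hNl, hNn, values_fixed₁ hNn b (fun g s hs => h g s (hWle (hNW hs)).1) ?_⟩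
  intro x s hs
  have := h' 1 x s 1 (hWle (hNW hs)).2 V.one_mem
  rwa [one_mul, mul_one] at this

/-- level form of the KEY REMARK, degree 2 -/
theorem exists_level_values_fixed₂ (hN : L.NormalCofinal) {b : G × G → A} (hb : L.IsLC₂ b)
    (hdb : IsLC₃ L ((d₂₃ A).hom b)) :
    ∃ U ∈ L.levels, U.Normal ∧ ∀ g h, ∀ s ∈ U, A.ρ s (b (g, h)) = b (g, h) := by
  obtain ⟨U, hU, h⟩ := hb
  obtain ⟨V, hV, h'⟩ := hdb
  obtain ⟨W, hW, hWle⟩ := L.directed U hU V hV
  obtain ⟨N, hNl, hNW, hNn⟩ := hN W hW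
  refine ⟨N, hNl, hNn, values_fixed₂ hNn b
    (fun g x s s' hs hs' => h g x s s' (hWle (hNW hs)).1 (hWle (hNW hs')).1) ?_⟩
  intro x y s hs
  have := h' 1 x y s 1 1 (hWle (hNW hs)).2 V.one_mem V.one_mem
  rwa [one_mul, mul_one, mul_one] at this

end KeyRemark

/-! ### K-I4: coboundaries of cochains with fixed values, lifting -/

section Lift

variable {k : Type} [CommRing k] {A : Rep.{0, 0, 0} k G} (L : LevelSys G)

/-- the values of `f` are fixed by a common level -/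
def UFixed₁ (L : LevelSys G) (f : G → A) : Prop :=
  ∃ U ∈ L.levels, ∀ g, ∀ s ∈ U, A.ρ s (f g) = f g

/-- the values of `f` are fixed by a common level -/
def UFixed₂ (L : LevelSys G) (f : G × G → A) : Prop :=
  ∃ U ∈ L.levels, ∀ x, ∀ s ∈ U, A.ρ s (f x) = f x

theorem isLC₁_d₀₁_of_fixed {a : A} (ha : ∃ U ∈ L.levels, ∀ s ∈ U, A.ρ s a = a) :
    L.IsLC₁ ((d₀₁ A).hom a) := by
  obtain ⟨U, hU, h⟩ := ha
  refine ⟨U, hU, fun g s hs => ?_⟩
  simp only [d₀₁_hom_apply, map_mul, Module.End.mul_apply, h s hs]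

theorem isLC₂_d₁₂_of_fixed (hN : L.NormalCofinal) {x : G → A} (hx : L.IsLC₁ x)
    (hfix : UFixed₁ L x) : L.IsLC₂ ((d₁₂ A).hom x) := by
  obtain ⟨U, hU, h⟩ := hfix
  obtain ⟨V, hV, hx⟩ := hx
  obtain ⟨W, hW, hWle⟩ := L.directed U hU V hV
  obtain ⟨N, hNl, hNW, hNn⟩ := hN W hW
  refine ⟨N, hNl, fun g g' s s' hs hs' => ?_⟩
  have hsU : s ∈ U := (hWle (hNW hs)).1
  have hs'V : s' ∈ V := (hWle (hNW hs')).2
  have hconj : g'⁻¹ * s * g' ∈ N := by
    have := hNn.conj_mem s hs g'⁻¹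
    simpa using this
  have hmem : g'⁻¹ * s * g' * s' ∈ V := (hWle (hNW (N.mul_mem hconj hs'))).2
  have e1 : g * s * (g' * s') = g * g' * (g'⁻¹ * s * g' * s') := by group
  simp only [d₁₂_hom_apply]
  rw [e1, hx (g * g') _ hmem, hx g' s' hs'V, hx g s (hWle (hNW hs)).2, map_mul,
    Module.End.mul_apply, h g' s hsU]

theorem isLC₃_d₂₃_of_fixed (hN : L.NormalCofinal) {x : G × G → A} (hx : L.IsLC₂ x)
    (hfix : UFixed₂ L x) : IsLC₃ L ((d₂₃ A).hom x) := by
  obtain ⟨U, hU, h⟩ := hfix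
  obtain ⟨V, hV, hx⟩ := hx
  obtain ⟨W, hW, hWle⟩ := L.directed U hU V hV
  obtain ⟨N, hNl, hNW, hNn⟩ := hN W hW
  refine ⟨N, hNl, fun g₁ g₂ g₃ s₁ s₂ s₃ hs₁ hs₂ hs₃ => ?_⟩
  have hV' : ∀ s ∈ N, s ∈ V := fun s hs => (hWle (hNW hs)).2
  have hconj : ∀ (s : G), s ∈ N → ∀ g : G, g⁻¹ * s * g ∈ N := by
    intro s hs g
    have := hNn.conj_mem s hs g⁻¹
    simpa using this
  have e1 : g₁ * s₁ * (g₂ * s₂) = g₁ * g₂ * (g₂⁻¹ * s₁ * g₂ * s₂) := by group
  have e2 : g₂ * s₂ * (g₃ * s₃) = g₂ * g₃ * (g₃⁻¹ * s₂ * g₃ * s₃) := by group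
  simp only [d₂₃_hom_apply]
  rw [e1, e2, hx (g₁ * g₂) g₃ _ s₃ (hV' _ (N.mul_mem (hconj s₁ hs₁ g₂) hs₂)) (hV' _ hs₃),
    hx g₁ (g₂ * g₃) s₁ _ (hV' _ hs₁) (hV' _ (N.mul_mem (hconj s₂ hs₂ g₃) hs₃)),
    hx g₂ g₃ s₂ s₃ (hV' _ hs₂) (hV' _ hs₃), hx g₁ g₂ s₁ s₂ (hV' _ hs₁) (hV' _ hs₂), map_mul,
    Module.End.mul_apply, h (g₂, g₃) s₁ (hWle (hNW hs₁)).1]

/-- a level-constant cochain with smooth values has uniformly fixed values -/
theorem uFixed₁_of_smooth_values (hL : L.FiniteIndex) {f : G → A} (hf : L.IsLC₁ f)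
    (h : ∀ g, ∃ U ∈ L.levels, ∀ s ∈ U, A.ρ s (f g) = f g) : UFixed₁ L f := by
  obtain ⟨U, hU, hfix⟩ := exists_level_fixing_finite L (Set.range f)
    (finite_range_of_isLC₁ hL hf) (by rintro _ ⟨g, rfl⟩; exact h g)
  exact ⟨U, hU, fun g s hs => hfix _ ⟨g, rfl⟩ s hs⟩

/-- a level-constant cochain with smooth values has uniformly fixed values -/
theorem uFixed₂_of_smooth_values (hL : L.FiniteIndex) {f : G × G → A} (hf : L.IsLC₂ f)
    (h : ∀ x, ∃ U ∈ L.levels, ∀ s ∈ U, A.ρ s (f x) = f x) : UFixed₂ L f := by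
  obtain ⟨U, hU, hfix⟩ := exists_level_fixing_finite L (Set.range f)
    (finite_range_of_isLC₂ hL hf) (by rintro _ ⟨g, rfl⟩; exact h g)
  exact ⟨U, hU, fun g s hs => hfix _ ⟨g, rfl⟩ s hs⟩

/-- **Lifting, any degree**: a level-constant map `f : X → C` (i.e. with finitely many values)
with values in `φ(B^{smooth})` lifts through `φ` to `β ∘ f` with smooth values. -/
theorem exists_section_smooth {C : Type*} (φ : A → C) :
    ∃ β : C → A, ∀ c, (∃ b : A, φ b = c ∧ ∃ U ∈ L.levels, ∀ s ∈ U, A.ρ s b = b) →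
      φ (β c) = c ∧ ∃ U ∈ L.levels, ∀ s ∈ U, A.ρ s (β c) = β c := by
  classical
  refine ⟨fun c => if h : ∃ b : A, φ b = c ∧ ∃ U ∈ L.levels, ∀ s ∈ U, A.ρ s b = b
    then h.choose else 0, fun c hc => ?_⟩
  simp only [dif_pos hc]
  exact hc.choose_spec

/-- **K-I4, degree 1.** -/
theorem exists_lift₁ (hL : L.FiniteIndex) {C : Type*} (φ : A → C) {f : G → C}
    (hf : L.IsLC₁ f)
    (h : ∀ g, ∃ b : A, φ b = f g ∧ ∃ U ∈ L.levels, ∀ s ∈ U, A.ρ s b = b) :
    ∃ f' : G → A, (∀ g, φ (f' g) = f g) ∧ L.IsLC₁ f' ∧ UFixed₁ L f' := by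
  obtain ⟨β, hβ⟩ := exists_section_smooth L φ
  have hlc : L.IsLC₁ (β ∘ f) := hf.comp β
  refine ⟨β ∘ f, fun g => (hβ _ (h g)).1, hlc,
    uFixed₁_of_smooth_values L hL hlc (fun g => (hβ _ (h g)).2)⟩

/-- **K-I4, degree 2.** -/
theorem exists_lift₂ (hL : L.FiniteIndex) {C : Type*} (φ : A → C) {f : G × G → C}
    (hf : L.IsLC₂ f)
    (h : ∀ x, ∃ b : A, φ b = f x ∧ ∃ U ∈ L.levels, ∀ s ∈ U, A.ρ s b = b) :
    ∃ f' : G × G → A, (∀ x, φ (f' x) = f x) ∧ L.IsLC₂ f' ∧ UFixed₂ L f' := by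
  obtain ⟨β, hβ⟩ := exists_section_smooth L φ
  have hlc : L.IsLC₂ (β ∘ f) := hf.comp β
  refine ⟨β ∘ f, fun g => (hβ _ (h g)).1, hlc,
    uFixed₂_of_smooth_values L hL hlc (fun g => (hβ _ (h g)).2)⟩

/-- **K-I4, degree 1, with coboundary.** -/
theorem exists_lift₁_d (hL : L.FiniteIndex) (hN : L.NormalCofinal) {C : Type*} (φ : A → C)
    {f : G → C} (hf : L.IsLC₁ f)
    (h : ∀ g, ∃ b : A, φ b = f g ∧ ∃ U ∈ L.levels, ∀ s ∈ U, A.ρ s b = b) :
    ∃ f' : G → A, (∀ g, φ (f' g) = f g) ∧ f' ∈ L.C1 A ∧ (d₁₂ A).hom f' ∈ L.C2 A := by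
  obtain ⟨f', h1, h2, h3⟩ := exists_lift₁ L hL φ hf h
  exact ⟨f', h1, h2, isLC₂_d₁₂_of_fixed L hN h2 h3⟩

/-- **K-I4, degree 2, with coboundary.** -/
theorem exists_lift₂_d (hL : L.FiniteIndex) (hN : L.NormalCofinal) {C : Type*} (φ : A → C)
    {f : G × G → C} (hf : L.IsLC₂ f)
    (h : ∀ x, ∃ b : A, φ b = f x ∧ ∃ U ∈ L.levels, ∀ s ∈ U, A.ρ s b = b) :
    ∃ f' : G × G → A, (∀ x, φ (f' x) = f x) ∧ f' ∈ L.C2 A ∧ IsLC₃ L ((d₂₃ A).hom f') := by
  obtain ⟨f', h1, h2, h3⟩ := exists_lift₂ L hL φ hf h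
  exact ⟨f', h1, h2, isLC₃_d₂₃_of_fixed L hN h2 h3⟩

/-- in a uniformly smooth module every cochain has uniformly fixed values -/
theorem uFixed₁_of_isUSmooth (hA : L.IsUSmooth A) (f : G → A) : UFixed₁ L f := by
  obtain ⟨U, hU, h⟩ := hA
  exact ⟨U, hU, fun g s hs => h s hs _⟩

theorem uFixed₂_of_isUSmooth (hA : L.IsUSmooth A) (f : G × G → A) : UFixed₂ L f := by
  obtain ⟨U, hU, h⟩ := hA
  exact ⟨U, hU, fun g s hs => h s hs _⟩

/-- `d₂₃` of a level-constant cochain of a uniformly smooth module is level-constant -/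
theorem isLC₃_d₂₃ (hN : L.NormalCofinal) (hA : L.IsUSmooth A) {x : G × G → A}
    (hx : L.IsLC₂ x) : IsLC₃ L ((d₂₃ A).hom x) :=
  isLC₃_d₂₃_of_fixed L hN hx (uFixed₂_of_isUSmooth L hA x)

/-- `d34 ∘ d₂₃ = 0` -/
theorem d34_d₂₃ (x : G × G → A) : d34 A ((d₂₃ A).hom x) = 0 := by
  funext ⟨g₁, g₂, g₃, g₄⟩
  simp only [d34, d₂₃_hom_apply, map_add, map_sub, map_mul, Module.End.mul_apply, mul_assoc,
    Pi.zero_apply]
  abel

end Lift

end Fermat.Agent.S55.K.H698
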