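import Fermat.Agent.S55.K.T2aH635
import Fermat.Agent.S55.PT.LevelsNormal

/-!
# S55 / layer K, leaf K-T1 (helper635): `surjH2_of : H3FinSpec p S → SurjH2Spec p S`

`cd_p ≤ 2` in cochain form: if `H³_S` vanishes on finite modules then `H²_S` is right exact.
Given `φ : P ↠ N` and a level-constant 2-cocycle `x` of `N`, lift `x` to the level-constant
cochain `x̃ = sec ∘ x` of `P`; `d x̃` is a level-constant 3-cocycle with values in `R = ker φ`,
hence `d x̃ = d b` with `b` level-constant in `R`, and `x̃ - b` is a cocycle of `P` lifting `x`.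
-/

set_option autoImplicit false

noncomputable section

namespace Fermat.Agent.S55.K.H635

open groupCohomology Fermat.Agent.S55.PT

section Abstract

variable {F : Type} [Field F] {G : Type} [Group G]

/-- The kernel of an equivariant linear map, as a representation. -/
def kerRep {P N : Rep.{0, 0, 0} F G} (φ : P →ₗ[F] N) (hφ : IsEquivariant φ) :
    Rep.{0, 0, 0} F G :=
  Rep.of (P.ρ.subrepresentation (LinearMap.ker φ) (fun g x hx => by
    rw [LinearMap.mem_ker] at hx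
    show φ (P.ρ g x) = 0
    rw [hφ g x, hx, map_zero]))

/-- The inclusion `ker φ → P`. -/
def kerIncl {P N : Rep.{0, 0, 0} F G} (φ : P →ₗ[F] N) (hφ : IsEquivariant φ) :
    kerRep φ hφ →ₗ[F] P :=
  (LinearMap.ker φ).subtype

theorem kerIncl_equivariant {P N : Rep.{0, 0, 0} F G} (φ : P →ₗ[F] N) (hφ : IsEquivariant φ) :
    IsEquivariant (kerIncl φ hφ) := fun _ _ => rfl

theorem kerIncl_injective {P N : Rep.{0, 0, 0} F G} (φ : P →ₗ[F] N) (hφ : IsEquivariant φ) :
    Function.Injective (kerIncl φ hφ) := Subtype.val_injective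

theorem apply_kerIncl {P N : Rep.{0, 0, 0} F G} (φ : P →ₗ[F] N) (hφ : IsEquivariant φ)
    (a : kerRep φ hφ) : φ (kerIncl φ hφ a) = 0 :=
  LinearMap.mem_ker.1 (Subtype.property (show ↥(LinearMap.ker φ) from a))

theorem kerRep_isUSmooth {P N : Rep.{0, 0, 0} F G} (φ : P →ₗ[F] N) (hφ : IsEquivariant φ)
    {L : LevelSys G} (hP : L.IsUSmooth P) : L.IsUSmooth (kerRep φ hφ) := by
  obtain ⟨U, hU, h⟩ := hP
  exact ⟨U, hU, fun s hs a => Subtype.ext (h s hs (kerIncl φ hφ a))⟩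

theorem kerRep_finiteDimensional {P N : Rep.{0, 0, 0} F G} (φ : P →ₗ[F] N)
    (hφ : IsEquivariant φ) [FiniteDimensional F P] : FiniteDimensional F (kerRep φ hφ) :=
  inferInstanceAs (FiniteDimensional F ↥(LinearMap.ker φ))

/-- **K-T1, abstract form.**  If `H³_L(ker φ) = 0` then `H²_L(P) → H²_L(N)` is surjective. -/
theorem pushH2_surjective_of_h3Vanish {L : LevelSys G} (hN : L.NormalCofinal)
    {P N : Rep.{0, 0, 0} F G} (hP : L.IsUSmooth P) (φ : P →ₗ[F] N) (hφ : IsEquivariant φ)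
    (hsurj : Function.Surjective φ) (hR : H3Vanish L (kerRep φ hφ)) :
    Function.Surjective (pushH2 φ hφ L) := by
  intro y
  obtain ⟨x, rfl⟩ := L.H2π_surjective N y
  -- lift of `x`
  set xt : G × G → P := Function.surjInv hsurj ∘ (x : G × G → N) with hxt
  have hxtLC : L.IsLC₂ xt := LevelSys.IsLC₂.comp x.2.2 _
  have hφxt : (φ ∘ xt : G × G → N) = (x : G × G → N) := by
    funext z
    exact Function.surjInv_eq hsurj _
  -- `c = d xt` has values in `ker φ`
  have hc : ∀ z, φ ((d₂₃ P).hom xt z) = 0 := by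
    intro z
    have h1 := congrFun (push_d₂₃ φ hφ xt) z
    have h2 : (d₂₃ N).hom (x : G × G → N) = 0 := x.2.1
    rw [hφxt, h2] at h1
    exact h1.symm
  set c' : G × G × G → kerRep φ hφ := fun z => ⟨(d₂₃ P).hom xt z, hc z⟩ with hc'
  have hιc' : (kerIncl φ hφ ∘ c' : G × G × G → P) = (d₂₃ P).hom xt := rfl
  have hc'LC : IsLC₃ L c' := by
    obtain ⟨U, hU, h⟩ := d₂₃_isLC₃ hN hP hxtLC
    exact ⟨U, hU, fun g₁ g₂ g₃ s₁ s₂ s₃ h₁ h₂ h₃ => Subtype.ext (h g₁ g₂ g₃ s₁ s₂ s₃ h₁ h₂ h₃)⟩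
  have hdc' : d34 (kerRep φ hφ) c' = 0 := by
    have h3 : (kerIncl φ hφ ∘ d34 (kerRep φ hφ) c' : G × G × G × G → P) = 0 := by
      have h4 := d34_comp (kerIncl φ hφ).toAddMonoidHom (kerIncl_equivariant φ hφ) c'
      have h5 : d34 P (kerIncl φ hφ ∘ c') = 0 := by rw [hιc', d34_d₂₃]
      exact h4.symm.trans h5
    funext z
    apply kerIncl_injective φ hφ
    rw [Pi.zero_apply, map_zero]
    exact congrFun h3 z
  obtain ⟨b, hb, hdb⟩ := hR c' hc'LC hdc'
  -- the corrected lift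
  have hιb : (d₂₃ P).hom (kerIncl φ hφ ∘ b) = (d₂₃ P).hom xt := by
    rw [push_d₂₃ (kerIncl φ hφ) (kerIncl_equivariant φ hφ), hdb, hιc']
  have hy'Z : xt - (kerIncl φ hφ ∘ b : G × G → P) ∈ L.Z2 P := by
    refine ⟨?_, (L.C2 P).sub_mem hxtLC (LevelSys.IsLC₂.comp hb (kerIncl φ hφ))⟩
    show (d₂₃ P).hom (xt - (kerIncl φ hφ ∘ b : G × G → P)) = 0
    rw [map_sub, hιb, sub_self]
  refine ⟨L.H2π P ⟨_, hy'Z⟩, ?_⟩
  rw [pushH2_mk]
  congr 1
  apply Subtype.ext
  funext z
  show φ (xt z - kerIncl φ hφ (b z)) = (x : G × G → N) z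
  rw [map_sub, apply_kerIncl, sub_zero]
  exact congrFun hφxt z

end Abstract

/-- **K-T1.** -/
theorem surjH2_of (p : ℕ) [Fact p.Prime] (S : Finset Nat.Primes) (h : H3FinSpec p S) :
    SurjH2Spec p S := by
  intro hp2 hpS P N hPfin _ hP _ φ hφ hsurj
  have hN : (globalLevels S).NormalCofinal := globalLevels_normal_cofinal724 S
  have := hPfin
  exact pushH2_surjective_of_h3Vanish hN hP φ hφ hsurj
    (h hp2 hpS (kerRep φ hφ) (kerRep_finiteDimensional φ hφ) (kerRep_isUSmooth φ hφ hP))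

end Fermat.Agent.S55.K.H635
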