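import Fermat.Agent.S55.K.Spec
import Fermat.Agent.S55.PT.Les

/-!
# S55 / layer K, leaf K-T2a (helper635): closure properties of `H3Vanish`

Cochain level, ANY commutative coefficient ring `k`, any group `G` with a level system `L`.

* `d34_d₂₃`, `d₂₃_isLC₃`, `d₂₃_comp`, `d34_comp` : basics in degree 3;
* `h3Vanish_of_retract`, `h3Vanish_of_addEquiv` : retracts, isomorphisms;
* `h3Vanish_of_extension` : extensions `0 → A → B → C → 0` (additive equivariant maps,
  `B` uniformly smooth, normal levels cofinal);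
* `h3Vanish_of_sum_eq_id`, `h3Vanish_of_bijective_pi` : finite direct sums;
* `h3Vanish_of_subsingleton` : the zero module;
* `h3Vanish_of_ses` : extensions in the form of `PT.SES` (coefficients in a field).
-/

set_option autoImplicit false

noncomputable section

namespace Fermat.Agent.S55.K.H635

open groupCohomology Fermat.Agent.S55.PT

variable {k : Type} [CommRing k] {G : Type} [Group G]

/-! ### Basics in degree 3 -/

/-- `d ∘ d = 0` in degrees `2 → 3 → 4`. -/
theorem d34_d₂₃ (A : Rep.{0, 0, 0} k G) (b : G × G → A) : d34 A ((d₂₃ A).hom b) = 0 := by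
  funext x
  obtain ⟨g₁, g₂, g₃, g₄⟩ := x
  simp only [d34, d₂₃_hom_apply, map_add, map_sub, Pi.zero_apply, map_mul, Module.End.mul_apply,
    mul_assoc]
  abel

/-- `d34` is additive. -/
theorem d34_sub (A : Rep.{0, 0, 0} k G) (f f' : G × G × G → A) :
    d34 A (f - f') = d34 A f - d34 A f' := by
  funext x
  simp only [d34, Pi.sub_apply, map_sub]
  abel

theorem isLC₃_comp {L : LevelSys G} {X Y : Type*} {f : G × G × G → X} (hf : IsLC₃ L f)
    (φ : X → Y) : IsLC₃ L (φ ∘ f) := by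
  obtain ⟨U, hU, h⟩ := hf
  exact ⟨U, hU, fun g₁ g₂ g₃ s₁ s₂ s₃ h₁ h₂ h₃ => by
    simp only [Function.comp_apply, h g₁ g₂ g₃ s₁ s₂ s₃ h₁ h₂ h₃]⟩

theorem isLC₃_map₂ {L : LevelSys G} {X Y Z : Type*} {f : G × G × G → X} {f' : G × G × G → Y}
    (hf : IsLC₃ L f) (hf' : IsLC₃ L f') (φ : X → Y → Z) :
    IsLC₃ L (fun x => φ (f x) (f' x)) := by
  obtain ⟨U, hU, h⟩ := hf
  obtain ⟨V, hV, h'⟩ := hf'
  obtain ⟨W, hW, hle⟩ := L.directed U hU V hV
  refine ⟨W, hW, fun g₁ g₂ g₃ s₁ s₂ s₃ h₁ h₂ h₃ => ?_⟩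
  simp only
  rw [h g₁ g₂ g₃ s₁ s₂ s₃ (hle h₁).1 (hle h₂).1 (hle h₃).1,
    h' g₁ g₂ g₃ s₁ s₂ s₃ (hle h₁).2 (hle h₂).2 (hle h₃).2]

theorem isLC₃_sub {L : LevelSys G} {X : Type*} [Sub X] {f f' : G × G × G → X}
    (hf : IsLC₃ L f) (hf' : IsLC₃ L f') : IsLC₃ L (f - f') :=
  isLC₃_map₂ hf hf' (· - ·)

theorem isLC₃_add {L : LevelSys G} {X : Type*} [Add X] {f f' : G × G × G → X}
    (hf : IsLC₃ L f) (hf' : IsLC₃ L f') : IsLC₃ L (f + f') :=
  isLC₃_map₂ hf hf' (· + ·)

/-- The coboundary of a level-constant 2-cochain is level-constant. -/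
theorem d₂₃_isLC₃ {L : LevelSys G} (hN : L.NormalCofinal) {A : Rep.{0, 0, 0} k G}
    (hA : L.IsUSmooth A) {b : G × G → A} (hb : L.IsLC₂ b) : IsLC₃ L ((d₂₃ A).hom b) := by
  obtain ⟨U, hU, h⟩ := hA
  obtain ⟨V, hV, hb⟩ := hb
  obtain ⟨W, hW, hWle⟩ := L.directed U hU V hV
  obtain ⟨N, hNl, hNW, hNn⟩ := hN W hW
  refine ⟨N, hNl, fun g₁ g₂ g₃ s₁ s₂ s₃ h₁ h₂ h₃ => ?_⟩
  have hV' : ∀ s ∈ N, s ∈ V := fun s hs => (hWle (hNW hs)).2
  have hU' : ∀ s ∈ N, s ∈ U := fun s hs => (hWle (hNW hs)).1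
  have hconj : ∀ (g s : G), s ∈ N → g⁻¹ * s * g ∈ N := by
    intro g s hs
    have := hNn.conj_mem s hs g⁻¹
    simpa using this
  have e1 : g₁ * s₁ * (g₂ * s₂) = g₁ * g₂ * (g₂⁻¹ * s₁ * g₂ * s₂) := by group
  have e2 : g₂ * s₂ * (g₃ * s₃) = g₂ * g₃ * (g₃⁻¹ * s₂ * g₃ * s₃) := by group
  simp only [d₂₃_hom_apply]
  rw [e1, e2, hb g₂ g₃ s₂ s₃ (hV' _ h₂) (hV' _ h₃),
    hb (g₁ * g₂) g₃ _ s₃ (hV' _ (N.mul_mem (hconj g₂ s₁ h₁) h₂)) (hV' _ h₃),
    hb g₁ (g₂ * g₃) s₁ _ (hV' _ h₁) (hV' _ (N.mul_mem (hconj g₃ s₂ h₂) h₃)),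
    hb g₁ g₂ s₁ s₂ (hV' _ h₁) (hV' _ h₂), map_mul, Module.End.mul_apply, h s₁ (hU' _ h₁)]

section Comp

variable {A B : Rep.{0, 0, 0} k G} (φ : A →+ B) (hφ : ∀ (g : G) (a : A), φ (A.ρ g a) = B.ρ g (φ a))

include hφ in
/-- `d₂₃` commutes with equivariant additive maps. -/
theorem d₂₃_comp (b : G × G → A) : (d₂₃ B).hom (φ ∘ b) = φ ∘ (d₂₃ A).hom b := by
  funext x
  simp only [d₂₃_hom_apply, Function.comp_apply, map_add, map_sub, hφ]

include hφ in
/-- `d34` commutes with equivariant additive maps. -/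
theorem d34_comp (f : G × G × G → A) : d34 B (φ ∘ f) = φ ∘ d34 A f := by
  funext x
  simp only [d34, Function.comp_apply, map_add, map_sub, hφ]

end Comp

/-! ### Retracts and isomorphisms -/

/-- `H3Vanish` passes to retracts. -/
theorem h3Vanish_of_retract {L : LevelSys G} {A B : Rep.{0, 0, 0} k G} (i : A →+ B) (r : B →+ A)
    (hi : ∀ (g : G) (a : A), i (A.ρ g a) = B.ρ g (i a))
    (hr : ∀ (g : G) (b : B), r (B.ρ g b) = A.ρ g (r b))
    (hri : ∀ a : A, r (i a) = a) (hB : H3Vanish L B) : H3Vanish L A := by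
  intro f hf hdf
  have h1 : d34 B (i ∘ f) = 0 := by
    rw [d34_comp i hi, hdf]
    funext x
    exact map_zero i
  obtain ⟨b, hb, hdb⟩ := hB (i ∘ f) (isLC₃_comp hf i) h1
  refine ⟨r ∘ b, LevelSys.IsLC₂.comp hb r, ?_⟩
  rw [d₂₃_comp r hr, hdb]
  funext x
  exact hri (f x)

/-- `H3Vanish` is invariant under equivariant additive isomorphisms. -/
theorem h3Vanish_of_addEquiv {L : LevelSys G} {A B : Rep.{0, 0, 0} k G} (e : A ≃+ B)
    (he : ∀ (g : G) (a : A), e (A.ρ g a) = B.ρ g (e a)) (hB : H3Vanish L B) : H3Vanish L A := by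
  refine h3Vanish_of_retract e.toAddMonoidHom e.symm.toAddMonoidHom he ?_ ?_ hB
  · intro g b
    apply e.injective
    show e (e.symm (B.ρ g b)) = e (A.ρ g (e.symm b))
    rw [he, e.apply_symm_apply, e.apply_symm_apply]
  · intro a
    exact e.symm_apply_apply a

/-- The zero module. -/
theorem h3Vanish_of_subsingleton {L : LevelSys G} {A : Rep.{0, 0, 0} k G} [Subsingleton A] :
    H3Vanish L A := by
  intro f _ _
  refine ⟨0, (L.C2 A).zero_mem, ?_⟩
  funext x
  exact Subsingleton.elim _ _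

/-! ### Extensions -/

/-- `H3Vanish` is closed under extensions `0 → A → B → C → 0`. -/
theorem h3Vanish_of_extension {L : LevelSys G} (hN : L.NormalCofinal)
    {A B C : Rep.{0, 0, 0} k G} (hB : L.IsUSmooth B) (i : A →+ B) (π : B →+ C)
    (hi : ∀ (g : G) (a : A), i (A.ρ g a) = B.ρ g (i a))
    (hπ : ∀ (g : G) (b : B), π (B.ρ g b) = C.ρ g (π b))
    (hinj : Function.Injective i) (hsurj : Function.Surjective π)
    (hex : ∀ b : B, π b = 0 → ∃ a : A, i a = b)
    (hA : H3Vanish L A) (hC : H3Vanish L C) : H3Vanish L B := by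
  classical
  intro f hf hdf
  -- the image in `C` is a coboundary
  have h1 : d34 C (π ∘ f) = 0 := by
    rw [d34_comp π hπ, hdf]
    funext x
    exact map_zero π
  obtain ⟨b'', hb'', hdb''⟩ := hC (π ∘ f) (isLC₃_comp hf π) h1
  -- lift `b''` to `B`
  set bt : G × G → B := Function.surjInv hsurj ∘ b'' with hbt
  have hbtLC : L.IsLC₂ bt := LevelSys.IsLC₂.comp hb'' _
  have hπbt : (π ∘ bt : G × G → C) = b'' := by
    funext x
    exact Function.surjInv_eq hsurj (b'' x)
  -- `f' = f - d bt` has values in `ker π = im i`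
  set f' : G × G × G → B := f - (d₂₃ B).hom bt with hf'
  have hf'LC : IsLC₃ L f' := isLC₃_sub hf (d₂₃_isLC₃ hN hB hbtLC)
  have hπf' : ∀ x, π (f' x) = 0 := by
    intro x
    have h2 := congrFun (d₂₃_comp π hπ bt) x
    rw [hπbt, hdb''] at h2
    simp only [hf', Pi.sub_apply, map_sub]
    simp only [Function.comp_apply] at h2
    rw [← h2, sub_self]
  -- a set-theoretic inverse of `i` on `ker π`
  let ι : B → A := fun b => if h : π b = 0 then Classical.choose (hex b h) else 0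
  have hι : ∀ b, π b = 0 → i (ι b) = b := by
    intro b h
    simp only [ι, dif_pos h]
    exact Classical.choose_spec (hex b h)
  set f'' : G × G × G → A := ι ∘ f' with hf''
  have hif'' : (i ∘ f'' : G × G × G → B) = f' := by
    funext x
    exact hι _ (hπf' x)
  have hdf'' : d34 A f'' = 0 := by
    have h3 : (i ∘ d34 A f'' : G × G × G × G → B) = 0 := by
      rw [← d34_comp i hi, hif'', hf', d34_sub, hdf, d34_d₂₃, sub_zero]
    funext x
    apply hinj
    rw [Pi.zero_apply, map_zero]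
    exact congrFun h3 x
  obtain ⟨b', hb', hdb'⟩ := hA f'' (isLC₃_comp hf'LC ι) hdf''
  refine ⟨i ∘ b' + bt, (L.C2 B).add_mem (LevelSys.IsLC₂.comp hb' i) hbtLC, ?_⟩
  rw [map_add, d₂₃_comp i hi, hdb', hif'', hf']
  abel

/-! ### Finite direct sums -/

/-- `H3Vanish` is closed under finite direct sums, in "biproduct" form: `B` with equivariant maps
`inc j : A j → B`, `pr j : B → A j` such that `∑ j, inc j (pr j b) = b`. -/
theorem h3Vanish_of_sum_eq_id {L : LevelSys G} {ι : Type} [Fintype ι]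
    (A : ι → Rep.{0, 0, 0} k G) (B : Rep.{0, 0, 0} k G)
    (inc : ∀ j, A j →+ B) (pr : ∀ j, B →+ A j)
    (hinc : ∀ (j : ι) (g : G) (a : A j), inc j ((A j).ρ g a) = B.ρ g (inc j a))
    (hpr : ∀ (j : ι) (g : G) (b : B), pr j (B.ρ g b) = (A j).ρ g (pr j b))
    (hsum : ∀ b : B, ∑ j, inc j (pr j b) = b)
    (hA : ∀ j, H3Vanish L (A j)) : H3Vanish L B := by
  classical
  intro f hf hdf
  have h1 : ∀ j, d34 (A j) (pr j ∘ f) = 0 := by
    intro j
    rw [d34_comp (pr j) (hpr j), hdf]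
    funext x
    exact map_zero (pr j)
  choose b hb hdb using fun j => hA j (pr j ∘ f) (isLC₃_comp hf (pr j)) (h1 j)
  refine ⟨∑ j, (inc j ∘ b j : G × G → B), (L.C2 B).sum_mem fun j _ =>
    LevelSys.IsLC₂.comp (hb j) (inc j), ?_⟩
  rw [map_sum]
  funext x
  rw [Finset.sum_apply, ← hsum (f x)]
  refine Finset.sum_congr rfl fun j _ => ?_
  rw [d₂₃_comp (inc j) (hinc j), hdb j]
  rfl

/-- `H3Vanish` is closed under finite products, in the form of `T.FiniteProdSpec`: the map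
`B → ∏ j, A j` with components `pr j` is bijective. -/
theorem h3Vanish_of_bijective_pi {L : LevelSys G} {ι : Type} [Finite ι]
    (A : ι → Rep.{0, 0, 0} k G) (B : Rep.{0, 0, 0} k G) (pr : ∀ j, B →+ A j)
    (hpr : ∀ (j : ι) (g : G) (b : B), pr j (B.ρ g b) = (A j).ρ g (pr j b))
    (hbij : Function.Bijective (fun (b : B) (j : ι) => pr j b))
    (hA : ∀ j, H3Vanish L (A j)) : H3Vanish L B := by
  classical
  have : Fintype ι := Fintype.ofFinite ι
  intro f hf hdf
  have h1 : ∀ j, d34 (A j) (pr j ∘ f) = 0 := by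
    intro j
    rw [d34_comp (pr j) (hpr j), hdf]
    funext x
    exact map_zero (pr j)
  choose b hb hdb using fun j => hA j (pr j ∘ f) (isLC₃_comp hf (pr j)) (h1 j)
  -- the inverse of `B → ∏ A j`
  let e : B ≃ (∀ j, A j) := Equiv.ofBijective _ hbij
  have he : ∀ (y : ∀ j, A j) (j : ι), pr j (e.symm y) = y j := by
    intro y j
    exact congrFun (e.apply_symm_apply y) j
  set bb : G × G → B := fun x => e.symm (fun j => b j x) with hbb
  have hbbLC : L.IsLC₂ bb := by
    -- a common level for the finitely many `b j`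
    have hall : ∀ T : Finset ι, ∃ U ∈ L.levels, ∀ j ∈ T, ∀ g g' s s' : G, s ∈ U → s' ∈ U →
        b j (g * s, g' * s') = b j (g, g') := by
      intro T
      induction T using Finset.induction_on with
      | empty =>
        obtain ⟨U, hU⟩ := L.nonempty
        exact ⟨U, hU, fun j hj => absurd hj (Finset.notMem_empty j)⟩
      | insert a T _ ih =>
        obtain ⟨U, hU, h⟩ := ih
        obtain ⟨V, hV, h'⟩ := hb a
        obtain ⟨W, hW, hle⟩ := L.directed U hU V hV
        refine ⟨W, hW, fun j hj g g' s s' hs hs' => ?_⟩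
        rcases Finset.mem_insert.1 hj with rfl | hj
        · exact h' g g' s s' (hle hs).2 (hle hs').2
        · exact h j hj g g' s s' (hle hs).1 (hle hs').1
    obtain ⟨U, hU, h⟩ := hall Finset.univ
    refine ⟨U, hU, fun g g' s s' hs hs' => ?_⟩
    simp only [hbb]
    congr 1
    funext j
    exact h j (Finset.mem_univ j) g g' s s' hs hs'
  refine ⟨bb, hbbLC, ?_⟩
  funext x
  apply hbij.1
  funext j
  show pr j ((d₂₃ B).hom bb x) = pr j (f x)
  have h2 := congrFun (d₂₃_comp (pr j) (hpr j) bb) x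
  have h3 : (pr j ∘ bb : G × G → A j) = b j := by
    funext y
    exact he _ j
  rw [h3, hdb j] at h2
  simp only [Function.comp_apply] at h2
  exact h2.symm

/-! ### Field coefficients: the `PT` form -/

/-- `H3Vanish` is closed under extensions, in the form of `PT.SES`. -/
theorem h3Vanish_of_ses {F : Type} [Field F] {L : LevelSys G} (hN : L.NormalCofinal)
    {A B C : Rep.{0, 0, 0} F G} (E : SES A B C) (hB : L.IsUSmooth B)
    (hA : H3Vanish L A) (hC : H3Vanish L C) : H3Vanish L B :=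
  h3Vanish_of_extension hN hB E.i.toAddMonoidHom E.π.toAddMonoidHom E.hi E.hπ E.inj E.surj
    (fun b hb => by
      have : b ∈ LinearMap.range E.i := by rw [E.exact]; exact hb
      exact this) hA hC

/-- `H3Vanish` passes to retracts (`PT.IsEquivariant` form). -/
theorem h3Vanish_of_retract' {F : Type} [Field F] {L : LevelSys G}
    {A B : Rep.{0, 0, 0} F G} (i : A →ₗ[F] B) (r : B →ₗ[F] A) (hi : IsEquivariant i)
    (hr : IsEquivariant r) (hri : ∀ a : A, r (i a) = a) (hB : H3Vanish L B) : H3Vanish L A :=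
  h3Vanish_of_retract i.toAddMonoidHom r.toAddMonoidHom hi hr hri hB

/-- `H3Vanish` is invariant under equivariant linear isomorphisms (`PT.IsEquivariant` form). -/
theorem h3Vanish_of_linearEquiv {F : Type} [Field F] {L : LevelSys G}
    {A B : Rep.{0, 0, 0} F G} (e : A ≃ₗ[F] B) (he : IsEquivariant e.toLinearMap)
    (hB : H3Vanish L B) : H3Vanish L A :=
  h3Vanish_of_addEquiv e.toAddEquiv he hB

end Fermat.Agent.S55.K.H635
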